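import Fermat.Agent.MCurve.Genus
import Fermat.Agent.MCurve.Spec.Place
import Fermat.Agent.GalRep.Model.Reduction

/-!
# S59, unit F1 (`p = 3`): without elliptic points of order three `j` has orders divisible by three

At a level with a prime `r ≡ 2 (mod 3)` every zero of `j` is triple, also modulo a good prime.
-/

set_option autoImplicit false
set_option linter.style.haveILetI false
set_option linter.unusedSectionVars false

noncomputable section

namespace Fermat.Agent.R59

open AlgebraicCurve ModularCurve IntermediateField CongruenceSubgroup IsLocalRing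
open Fermat.Agent.MCurve ModularGroup UpperHalfPlane

set_option maxHeartbeats 1000000
set_option synthInstance.maxHeartbeats 400000
open scoped MatrixGroups

local notation "Q̄" => AlgebraicClosure ℚ

/-- No elliptic points of order three when a prime `r ≡ 2 (mod 3)` divides the level. -/
theorem nuThree_eq_zero {m r : ℕ} [NeZero m] (hr : r.Prime) (hrm : r ∣ m) (hr3 : r % 3 = 2) :
    nuThree m = 0 := by
  rw [nuThree, Nat.card_eq_zero]
  refine Or.inl ⟨fun ⟨x, hx⟩ => ?_⟩
  haveI : Fact r.Prime := ⟨hr⟩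
  have h := congrArg (ZMod.castHom hrm (ZMod r)) hx
  rw [map_add, map_add, map_pow, map_one, map_zero] at h
  set y := ZMod.castHom hrm (ZMod r) x
  have h3 : y ^ 3 = 1 := by linear_combination (y - 1) * h
  have hy0 : y ≠ 0 := fun e => by rw [e] at h3; simp at h3
  have hy1 : y = 1 := by
    have hord : orderOf y ∣ 3 := orderOf_dvd_of_pow_eq_one h3
    have hord' : orderOf y ∣ r - 1 :=
      orderOf_dvd_of_pow_eq_one (ZMod.pow_card_sub_one_eq_one hy0)
    rcases (Nat.dvd_prime Nat.prime_three).mp hord with h1 | h1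
    · exact orderOf_eq_one_iff.mp h1
    · rw [h1] at hord'
      have := hr.two_le
      omega
  rw [hy1] at h
  have h' : ((3 : ℕ) : ZMod r) = 0 := by push_cast; linear_combination h
  have := (Nat.prime_dvd_prime_iff_eq hr Nat.prime_three).mp ((ZMod.natCast_eq_zero_iff 3 r).mp h')
  omega

/-- Every zero of `j` on `X₀(m)` is triple. -/
theorem ord_jBar_eq_three {m r : ℕ} [NeZero m] (hr : r.Prime) (hrm : r ∣ m) (hr3 : r % 3 = 2)
    (v : Place Q̄ (modularFunctionFieldBar m)) (hv : 0 < v.ord (jBar m Q̄)) :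
    v.ord (jBar m Q̄) = 3 := by
  classical
  letI : Algebra Q̄ ℂ := GalRep.qbarToC.toAlgebra
  obtain ⟨hfin, hn⟩ := bar_isFinOver_and_finrank m Q̄
  obtain ⟨T, hT, hsum⟩ := hfin.exists_zeros 0
  rw [map_zero, sub_zero] at hT hsum
  -- the number of zeros
  have hcard : 3 * T.card = (Gamma0 m).index := by
    have h := card_fibre_rho m Q̄
    rw [Period.fixCard_ellU, nuThree_eq_zero hr hrm hr3, mul_zero, add_zero, map_zero,
      sub_zero] at h
    have h' := card_bar_fibre m Q̄ (jBar m Q̄) 0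
    rw [map_zero, map_zero, sub_zero, sub_zero, barEquiv_jBar] at h'
    rw [← h'] at h
    rw [Subgroup.index_eq_card]
    refine Eq.trans ?_ h
    rw [show T.card = Nat.card T by simp]
    exact congrArg (3 * ·) (Nat.card_congr (Equiv.subtypeEquivRight hT))
  -- each zero is at most triple
  obtain ⟨P, hP, hle⟩ : ∃ P : Place Q̄ (ModFld m Q̄), 0 < P.ord (jL m Q̄) ∧ P.ord (jL m Q̄) ≤ 3 := by
    have hE := Period.E4_ρ
    have h6 := Period.not_common_zero _ hE
    have hτ : jFn ρ = algebraMap Q̄ ℂ 0 := by rw [map_zero, jFn, hE]; simp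
    have hd : deriv ((ModularForm.E₄ : UpperHalfPlane → ℂ) ∘ UpperHalfPlane.ofComplex)
        (ρ : ℂ) ≠ 0 := by
      rw [(Period.hasDerivAt_of_D (ModularFormClass.holo ModularForm.E₄) ρ).deriv,
        Period.D_E4, hE, mul_zero, zero_sub]
      exact mul_ne_zero Complex.two_pi_I_ne_zero (mul_ne_zero (by norm_num) (neg_ne_zero.mpr h6))
    obtain ⟨P, hP, hle, -⟩ := exists_point_place (N := m) (K := Q̄) ρ 0 hτ
    rw [map_zero, sub_zero] at hP hle
    refine ⟨P, hP, hle.trans ?_⟩
    have : analyticOrderNatAt ((fun z => jFn z - algebraMap Q̄ ℂ 0) ∘ UpperHalfPlane.ofComplex)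
        (ρ : ℂ) ≤ 3 := by
      rw [show (fun z => jFn z - algebraMap Q̄ ℂ 0) =
        fun z => ModularForm.E₄ z ^ 3 / ModularForm.discriminant z by
          funext z; rw [map_zero, sub_zero]; rfl]
      exact (analyticOrder_div_discriminant (ModularFormClass.holo ModularForm.E₄) hE hd 3).le
    exact_mod_cast this
  have hbound : ∀ w ∈ T, w.ord (jBar m Q̄) ≤ 3 := fun w hw => by
    set w' := placeEquiv (barEquiv m Q̄) w
    have hw' : w'.ord (⟨jL m Q̄, jL_mem_fixFld m Q̄⟩ : fixFld m Q̄) = w.ord (jBar m Q̄) := by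
      rw [← barEquiv_jBar, ord_placeEquiv]
    haveI : FiniteDimensional (fixFld m Q̄) (ModFld m Q̄) := Module.finite_of_finrank_pos (by
      rw [show Module.finrank (fixFld m Q̄) (ModFld m Q̄) = Nat.card (gamma0Gp m Q̄) from
        finrank_fixedField_gp m Q̄ _]
      exact Nat.card_pos)
    haveI : Algebra.IsIntegral (fixFld m Q̄) (ModFld m Q̄) := Algebra.IsIntegral.of_finite _ _
    obtain ⟨Q, hQ⟩ := exists_place_extension (isFinOver_jL m Q̄) (F := fixFld m Q̄) w'
    have he := Q.ramificationIndex_pos (F := fixFld m Q̄)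
    have hres := Q.ord_restrict (⟨jL m Q̄, jL_mem_fixFld m Q̄⟩ : fixFld m Q̄)
    rw [hQ, show algebraMap (fixFld m Q̄) (ModFld m Q̄) ⟨jL m Q̄, jL_mem_fixFld m Q̄⟩ = jL m Q̄
      from rfl, hw'] at hres
    have hpos := (hT w).mp hw
    have he' : (1 : ℤ) ≤ Q.ramificationIndex (fixFld m Q̄) := by exact_mod_cast he
    have hQpos : 0 < Q.ord (jL m Q̄) := by rw [hres]; nlinarith
    obtain ⟨hconj, -⟩ := (isFinOver_jL m Q̄).galois_fibre (fullGp m Q̄)
      (fixedField_fullGp m Q̄) 0 P (by rwa [map_zero, sub_zero])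
    obtain ⟨σ, hσ, rfl⟩ := hconj Q (by rwa [map_zero, sub_zero])
    rw [ord_smul_place, (mem_fixedField_iff (fullGp m Q̄) (jL m Q̄)).mp
      ((fixedField_fullGp m Q̄).symm ▸ mem_adjoin_simple_self Q̄ (jL m Q̄)) σ⁻¹
      (inv_mem hσ)] at hres
    nlinarith
  rw [hn] at hsum
  have hall := (Finset.sum_eq_sum_iff_of_le fun w hw => hbound w hw).mp (show
    ∑ w ∈ T, w.ord (jBar m Q̄) = ∑ w ∈ T, (3 : ℤ) by
      rw [hsum, Finset.sum_const, nsmul_eq_mul, ← hcard]; push_cast; ring)
  exact hall v ((hT v).mpr hv)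

/-- Modulo a good prime every zero of `j` has order divisible by three. -/
theorem three_dvd_ord_jFullC {m r q : ℕ} [NeZero m] [Fact q.Prime] {A : ValuationSubring Q̄}
    (hA : A.LiesOverPrime q) (hqm : ¬ q ∣ m) (hr : r.Prime) (hrm : r ∣ m) (hr3 : r % 3 = 2)
    (Q : Place (ResidueField A) (modularFunctionFieldFullC (ResidueField A) m))
    (hQ : 0 < Q.ord (jFullC (ResidueField A) m)) :
    (3 : ℤ) ∣ Q.ord (jFullC (ResidueField A) m) := by
  classical
  haveI := MCurve.Spec.finite_residue_bar (N := m) hA hqm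
  haveI := MCurve.Spec.finiteResidue_red (N := m) hA hqm
  rw [← MCurve.Spec.redT_J (hA := hA) (hℓN := hqm)] at hQ ⊢
  have hmem := MCurve.Spec.mem_of_sub_pos hA hqm (MCurve.Spec.chartVarJ A (N := m)) (c := 0)
    (by rwa [map_zero, sub_zero])
  have h := (MCurve.Spec.facts_J hA hqm 0).1 Q hmem (by rwa [map_zero, sub_zero])
    ⟨jBar m Q̄, MCurve.Spec.chart_le_redDom hA hqm (MCurve.Spec.chartVarJ A)
      (MCurve.Spec.self_mem_chart A _)⟩
    (fun he => by
      have : MCurve.Spec.redT hA hqm (MCurve.Spec.chartVarJ A (N := m)) = 0 := he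
      rw [this, Place.ord_zero] at hQ
      exact lt_irrefl _ hQ)
  rw [show MCurve.Spec.redT hA hqm (MCurve.Spec.chartVarJ A (N := m)) = MCurve.Spec.redF hA hqm
    ⟨jBar m Q̄, MCurve.Spec.chart_le_redDom hA hqm (MCurve.Spec.chartVarJ A)
      (MCurve.Spec.self_mem_chart A _)⟩ from rfl, ← h, MCurve.Spec.cenTot]
  refine finsum_induction (p := fun n : ℤ => (3 : ℤ) ∣ n) (dvd_zero _) (fun _ _ => dvd_add)
    fun P => ?_
  split_ifs with hP
  · rcases eq_or_lt_of_le (ord_nonneg_of_mem' P (show jBar m Q̄ ∈ P.toValuationSubring from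
      hP.1.1)) with h0 | h0
    · exact h0 ▸ dvd_zero _
    · rw [ord_jBar_eq_three hr hrm hr3 P h0]
  · exact dvd_zero _

end Fermat.Agent.R59
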