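import Fermat.Agent.LL.Mazur.EigenLower

/-!
# S59, unit F1: integral lifts and characters of the Hecke algebra without elliptic torsion
-/

set_option autoImplicit false
set_option linter.style.haveILetI false
set_option linter.unusedSectionVars false
set_option maxHeartbeats 800000

noncomputable section

namespace Fermat.Agent.R59

open Fermat.Agent.LL.Mazur (card_torsionBy_le trace_sq_or_pow_twelve mul_self_eq_trace)
open Fermat.Agent.MCurve
open AlgebraicCurve ModularCurve CongruenceSubgroup IntermediateField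
open Fermat.Agent.GalRep (ParHom parMap)
open scoped MatrixGroups


open CongruenceSubgroup
open Fermat.Agent.GalRep


local notation "ZM" => Matrix (Fin 2) (Fin 2) ℤ

/-- An element of finite order of trace other than `±1` is parabolic or has fourth power `1`. -/
theorem trace_sq_or_pow_four (A : ZM) (hd : A.det = 1) (h1 : A.trace ≠ 1) (h2 : A.trace ≠ -1)
    {k : ℕ} (hk : 0 < k) (h : A ^ k = 1) : A.trace ^ 2 = 4 ∨ A ^ 4 = 1 := by
  rcases trace_sq_or_pow_twelve A hd hk h with h4 | h12
  · exact Or.inl h4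
  by_cases h4 : A.trace ^ 2 = 4
  · exact Or.inl h4
  have hch := mul_self_eq_trace A hd
  rcases eq_or_ne A.trace 0 with h0 | h0
  · right
    rw [h0, zero_smul, zero_sub] at hch
    rw [show (4 : ℕ) = 2 * 2 from rfl, pow_mul, pow_two A, hch]
    simp
  · exfalso
    have h3 : 3 ≤ |A.trace| := by
      have hne : A.trace ≠ 2 ∧ A.trace ≠ -2 :=
        ⟨fun e => h4 (by rw [e]; rfl), fun e => h4 (by rw [e]; rfl)⟩
      exact le_abs.mpr (by omega)
    have key : ∀ n : ℕ, |(A ^ n).trace| < |(A ^ (n + 1)).trace| := by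
      intro n
      induction n with
      | zero =>
        rw [pow_zero, zero_add, pow_one, Matrix.trace_fin_two (1 : ZM)]
        simp
        omega
      | succ n ih =>
        have e : A ^ (n + 1 + 1) = A.trace • A ^ (n + 1) - A ^ n := by
          rw [pow_succ, pow_succ, mul_assoc, hch, mul_sub, mul_smul_comm, mul_one]
        rw [e, Matrix.trace_sub, Matrix.trace_smul, smul_eq_mul]
        have h1 := abs_sub_abs_le_abs_sub (A.trace * (A ^ (n + 1)).trace) (A ^ n).trace
        rw [abs_mul] at h1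
        nlinarith [abs_nonneg (A ^ (n + 1)).trace, abs_nonneg (A ^ n).trace]
    have hmono : StrictMono fun n => |(A ^ n).trace| := strictMono_nat_of_lt_succ key
    have h' : |(A ^ 0).trace| < |(A ^ 12).trace| := hmono (by norm_num)
    rw [h12, pow_zero] at h'
    exact lt_irrefl _ h'

/-- With a prime `r ≡ 2 (mod 3)` in the level no element has trace `±1`, so for `p = 3` every
parabolic character kills the torsion. -/
theorem noTors_of_neat {m p r : ℕ} [Fact p.Prime] (hr : r.Prime) (hrm : r ∣ m) (hr3 : r % 3 = 2)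
    (hp2 : p ≠ 2) (χ : ParHom m (ZMod p)) : Flat.NoTors χ := by
  intro γ hγ
  obtain ⟨k, hk, hk1⟩ := isOfFinOrder_iff_pow_eq_one.mp hγ
  set A : ZM := ((γ : SL(2, ℤ)) : ZM) with hA
  have hAk : A ^ k = 1 := by
    have := congrArg (fun g : Gamma0 m => ((g : SL(2, ℤ)) : ZM)) hk1
    simpa [hA] using this
  have hd : A.det = 1 := (γ : SL(2, ℤ)).2
  have htr : ∀ e : ℤ, e * e = 1 → A.trace ≠ e := by
    intro e he ht
    haveI : Fact r.Prime := ⟨hr⟩
    have hc : ((A 1 0 : ℤ) : ZMod r) = 0 := by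
      have h := congrArg (ZMod.castHom hrm (ZMod r)) (Gamma0_mem.mp γ.2)
      rwa [map_intCast, map_zero] at h
    rw [Matrix.det_fin_two] at hd
    rw [Matrix.trace_fin_two] at ht
    have hd' := congrArg (fun z : ℤ => (z : ZMod r)) hd
    have ht' := congrArg (fun z : ℤ => (z : ZMod r)) ht
    have he' := congrArg (fun z : ℤ => (z : ZMod r)) he
    push_cast [hc] at hd' ht' he'
    set a := ((A 0 0 : ℤ) : ZMod r)
    set d := ((A 1 1 : ℤ) : ZMod r)
    set y := -((e : ZMod r)) * a with hy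
    have h : y ^ 2 + y + 1 = 0 := by
      rw [hy]
      linear_combination a * ht' - hd' + a ^ 2 * he'
    have h3 : y ^ 3 = 1 := by linear_combination (y - 1) * h
    have hy0 : y ≠ 0 := fun e => by rw [e] at h3; simp at h3
    have hy1 : y = 1 := by
      rcases (Nat.dvd_prime Nat.prime_three).mp (orderOf_dvd_of_pow_eq_one h3) with h1 | h1
      · exact orderOf_eq_one_iff.mp h1
      · have h2 := orderOf_dvd_of_pow_eq_one (ZMod.pow_card_sub_one_eq_one hy0)
        rw [h1] at h2
        have := hr.two_le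
        omega
    rw [hy1] at h
    have h' : ((3 : ℕ) : ZMod r) = 0 := by push_cast; linear_combination h
    have := (Nat.prime_dvd_prime_iff_eq hr Nat.prime_three).mp
      ((ZMod.natCast_eq_zero_iff 3 r).mp h')
    omega
  rcases trace_sq_or_pow_four A hd (htr 1 rfl) (htr (-1) rfl) hk hAk with h | h
  · exact χ.2 γ h
  · have h4 : γ ^ 4 = 1 := Subtype.ext (Subtype.ext (by simpa [hA] using h))
    have h0 : (4 : ℕ) • (χ : Additive (Gamma0 m) →+ ZMod p) (Additive.ofMul γ) = 0 := by
      rw [← map_nsmul, ← ofMul_pow, h4, ofMul_one, map_zero]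
    rw [nsmul_eq_mul] at h0
    refine (mul_eq_zero.mp h0).resolve_left fun h' => hp2 ?_
    have hp := (Fact.out : p.Prime)
    exact (Nat.prime_dvd_prime_iff_eq hp Nat.prime_two).mp
      (hp.dvd_of_dvd_pow (show p ∣ 2 ^ 2 from (ZMod.natCast_eq_zero_iff _ _).mp h'))

section Lift

variable (m : ℕ) [NeZero m]

/-- **Integral lifts of characters modulo `p`.** -/
theorem exists_int_lift_of_noTors {p : ℕ} [Fact p.Prime] (χ : ParHom m (ZMod p))
    (hnt : Flat.NoTors χ) :
    ∃ φ : ParHom m ℤ, parMap (Int.castAddHom (ZMod p)) φ = χ := by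
  classical
  have hp : p.Prime := Fact.out
  haveI : NeZero p := ⟨hp.ne_zero⟩
  haveI := Flat.finite_torsionBy m p
  set r := Module.finrank ℤ (ParHom m ℤ)
  let b := Module.finBasis ℤ (ParHom m ℤ)
  let s : (Fin r → Fin p) → ParHom m ℤ := fun t => ∑ i, ((t i : ℕ) : ℤ) • b i
  let c : (Fin r → Fin p) → Submodule.torsionBy ℤ (JZero m) (p : ℤ) := fun t =>
    (Flat.exists_kummerMap_eq m (Flat.noTors_parMap m (Int.castAddHom (ZMod p)) (s t))).choose
  have hc : ∀ t, Flat.kummerMap m p (c t) = parMap (Int.castAddHom (ZMod p)) (s t) := fun t =>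
    (Flat.exists_kummerMap_eq m (Flat.noTors_parMap m (Int.castAddHom (ZMod p)) (s t))).choose_spec
  have hinj : Function.Injective c := fun u v huv => by
    have h1 := (hc u).symm.trans ((congrArg (Flat.kummerMap m p) huv).trans (hc v))
    rw [← sub_eq_zero, ← map_sub, ← Finset.sum_sub_distrib] at h1
    simp only [← sub_smul] at h1
    set φ : ParHom m ℤ := ∑ i, (((u i : ℕ) : ℤ) - ((v i : ℕ) : ℤ)) • b i
    have hdiv : ∀ x, (p : ℤ) ∣ (φ : Additive (Gamma0 m) →+ ℤ) x := fun x => by
      have h2 := DFunLike.congr_fun (congrArg Subtype.val h1) x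
      rw [GalRep.parMap_apply] at h2
      exact (ZMod.intCast_zmod_eq_zero_iff_dvd _ _).mp h2
    let ψ : ParHom m ℤ := ⟨AddMonoidHom.mk' (fun x => (φ : Additive (Gamma0 m) →+ ℤ) x / p)
      (fun x y => by rw [map_add, Int.add_ediv_of_dvd_left (hdiv x)]), fun γ hγ => by
        show (φ : Additive (Gamma0 m) →+ ℤ) (Additive.ofMul γ) / p = 0
        rw [φ.2 γ hγ, Int.zero_ediv]⟩
    have hφ : φ = (p : ℤ) • ψ := Subtype.ext (AddMonoidHom.ext fun x => by
      show _ = (p : ℤ) * ((φ : Additive (Gamma0 m) →+ ℤ) x / p)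
      rw [Int.mul_ediv_cancel' (hdiv x)])
    funext i
    have h3 := congrArg (fun θ => b.repr θ i) hφ
    simp only [φ, map_smul, Finsupp.smul_apply, smul_eq_mul] at h3
    rw [b.repr_sum_self] at h3
    have h4 : (p : ℤ) ∣ ((u i : ℕ) : ℤ) - ((v i : ℕ) : ℤ) := ⟨_, h3⟩
    apply Fin.ext
    have := (u i).isLt
    have := (v i).isLt
    have h5 := Int.eq_zero_of_abs_lt_dvd h4 (by rw [abs_lt]; omega)
    omega
  have hcard : Nat.card (Submodule.torsionBy ℤ (JZero m) (p : ℤ)) ≤ Nat.card (Fin r → Fin p) :=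
    calc _ ≤ p ^ (2 * Module.finrank ℂ (CuspForm (Gamma0 m) 2)) := card_torsionBy_le m hp
      _ ≤ p ^ r := Nat.pow_le_pow_right hp.pos (Flat.two_mul_finrank_le_parHom m)
      _ = _ := by simp
  have hbij : Function.Bijective c := hinj.bijective_of_nat_card_le hcard
  obtain ⟨z, hz⟩ := Flat.exists_kummerMap_eq m hnt
  obtain ⟨t, rfl⟩ := hbij.2 z
  exact ⟨s t, (hc t).symm.trans hz⟩

end Lift

/-- A nonzero eigenclass of a level without elliptic torsion gives a character. -/
theorem exists_theta_of_eigen_noTors {m p : ℕ} [NeZero m] [Fact p.Prime] [NeZero p]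
    (S : Finset ℕ) (hmS : ∀ r : ℕ, r.Prime → r ∣ m → r ∈ S) (a : ℕ → ℤ)
    {χ : ParHom m (ZMod p)} (h0 : χ ≠ 0)
    (hnt : ∀ χ' : ParHom m (ZMod p), Flat.NoTors χ')
    (heig : ∀ l : GoodPrime m, (l : ℕ) ∉ S → heckeHomAt l χ = a (l : ℕ) • χ) :
    ∃ θ : CuspForm.heckeAlgebra m 2 (↑S : Set ℕ) →+* ZMod p,
      ∀ (ℓ : ℕ) (hℓ : ℓ.Prime) (hℓm : ¬ ℓ ∣ m) (hℓS : ℓ ∉ (↑S : Set ℕ)),
        θ (CuspForm.heckeAlgebra.T hℓ hℓm hℓS) = (a ℓ : ZMod p) := by
  classical
  let ev : MvPolynomial (GoodPrimeOff m (↑S : Set ℕ)) ℤ →ₐ[ℤ] ZMod p :=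
    MvPolynomial.aeval fun i => ((a ((i.1 : GoodPrime m) : ℕ) : ℤ) : ZMod p)
  -- the action on the eigenclass
  have hact : ∀ P : MvPolynomial (GoodPrimeOff m (↑S : Set ℕ)) ℤ,
      heckePolyHom m (ZMod p) (MvPolynomial.rename Subtype.val P) χ = (ev P).val • χ := by
    intro P
    refine Subtype.ext (AddMonoidHom.ext fun x => ?_)
    rw [Submodule.coe_smul_of_tower, AddMonoidHom.smul_apply, nsmul_eq_mul, ZMod.natCast_zmod_val]
    induction P using MvPolynomial.induction_on generalizing x with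
    | C c =>
      rw [MvPolynomial.rename_C, ← MvPolynomial.algebraMap_eq, ← MvPolynomial.algebraMap_eq,
        AlgHom.commutes, AlgHom.commutes, Algebra.algebraMap_eq_smul_one, LinearMap.smul_apply,
        Module.End.one_apply, Submodule.coe_smul_of_tower, AddMonoidHom.smul_apply, zsmul_eq_mul]
      rfl
    | add P Q hP hQ =>
      rw [map_add, map_add, LinearMap.add_apply, Submodule.coe_add, AddMonoidHom.add_apply, hP x,
        hQ x, map_add, add_mul]
    | mul_X P i hP =>
      rw [map_mul, map_mul, Module.End.mul_apply, MvPolynomial.rename_X, heckePolyHom_X,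
        heig i.1 (fun h => i.2 h), map_zsmul, Submodule.coe_smul_of_tower,
        AddMonoidHom.smul_apply, hP x, zsmul_eq_mul, map_mul]
      simp only [ev, MvPolynomial.aeval_X]
      ring
  obtain ⟨φ, hφ⟩ := exists_int_lift_of_noTors m χ (hnt χ)
  -- the relations of the Hecke algebra hold for the eigenvalues
  have hker : ∀ P, evFormsOff (N := m) (↑S : Set ℕ) P = 0 → ev P = 0 := by
    intro P hP
    have h1 : evForms m (MvPolynomial.rename Subtype.val P) = 0 := by
      have e := coe_evFormsOff (N := m) (↑S : Set ℕ) P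
      rw [hP, ZeroMemClass.coe_zero] at e
      exact ZeroMemClass.coe_eq_zero.mp e.symm
    have h2 : heckePolyHom m ℤ (MvPolynomial.rename Subtype.val P) = 0 :=
      NewVec.heckePoly_eq_zero_of_forms h1
    have h3 := hact P
    rw [← hφ, heckePolyHom_natural, h2, LinearMap.zero_apply, map_zero, hφ] at h3
    by_contra hne
    refine h0 (Subtype.ext (AddMonoidHom.ext fun x => ?_))
    have h4 := DFunLike.congr_fun (congrArg Subtype.val h3.symm) x
    rw [Submodule.coe_smul_of_tower, AddMonoidHom.smul_apply, nsmul_eq_mul,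
      ZMod.natCast_zmod_val] at h4
    exact (mul_eq_zero.mp h4).resolve_left hne
  obtain ⟨θ, hθ⟩ := LL.Mazur.exists_factor_surjective
    (evFormsOff (N := m) (↑S : Set ℕ) : _ →ₐ[ℤ] _).toRingHom
    (Auto.evFormsOff_surjective m (↑S : Set ℕ) fun r hr hrm => hmS r hr hrm) ev.toRingHom
    fun P hP => hker P hP
  refine ⟨θ, fun ℓ hℓ hℓm hℓS => ?_⟩
  let i : GoodPrimeOff m (↑S : Set ℕ) := ⟨⟨⟨ℓ, hℓ⟩, hℓm⟩, hℓS⟩
  have hX : evFormsOff (N := m) (↑S : Set ℕ) (MvPolynomial.X i) =
      CuspForm.heckeAlgebra.T hℓ hℓm hℓS := by simp [evFormsOff, i]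
  have hev : ev (MvPolynomial.X i) = (a ℓ : ZMod p) := by simp [ev, i]
  rw [← hX, ← hev]
  exact hθ (MvPolynomial.X i)

end Fermat.Agent.R59
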