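import Fermat.Agent.Mazur3.DeltaQuot
import Fermat.Agent.MCurve.JFun
import Fermat.Agent.Period.JInjective
import Fermat.Agent.GalRep.Embeddings
import Fermat.Agent.Models.Field.Charts

/-!
# S59, unit F1 (`p = 3`): a function with simple zeros above `j = 0`

For a prime `r ≡ 2 (mod 3)` the function `E₄(τ) E₄(rτ)² / Δ(τ)` is modular for `Γ₀(r)`, has an
integral expansion at infinity and a simple zero at every zero of `j`: `rτ` is never a zero of `E₄`
there, no integral matrix of determinant `r` having `ρ` as a fixed point.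
-/

set_option autoImplicit false
set_option linter.style.haveILetI false

noncomputable section

namespace Fermat.Agent.R59

open UpperHalfPlane CongruenceSubgroup
open Fermat.Agent.GalRep
open Fermat.Agent.Mazur3 (intSer dInvSer hasQSeries_intSer hasQSeries_dInvSer disc_smul)
open scoped MatrixGroups Manifold

/-- A matrix of determinant `r ≡ 2 (mod 3)` moves `ρ`. -/
theorem posMat_smul_rho_ne {r : ℕ} (hr3 : r % 3 = 2) {M : Matrix (Fin 2) (Fin 2) ℤ}
    (h : 0 < M.det) (hdet : M.det = r) : posMat M h • ρ ≠ ρ := by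
  intro hfix
  set a := M 0 0
  set b := M 0 1
  set c := M 1 0
  set d := M 1 1
  have h1 := coe_posMat_smul M h ρ
  rw [hfix] at h1
  have hρ := UpperHalfPlane.ρ_sq
  have hne : (c : ℂ) * (ρ : ℂ) + d ≠ 0 := fun e => by
    rw [e, div_zero] at h1
    exact UpperHalfPlane.ne_zero ρ h1
  rw [eq_div_iff hne] at h1
  have h2 : ((d - a - c : ℤ) : ℂ) * (ρ : ℂ) + ((-(c + b) : ℤ) : ℂ) = 0 := by
    push_cast
    linear_combination h1 - (c : ℂ) * hρ
  have him := congrArg Complex.im h2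
  simp only [Complex.add_im, Complex.mul_im, Complex.intCast_im, Complex.intCast_re, mul_zero,
    zero_mul, add_zero, Complex.zero_im] at him
  have hd : d = a + c := by
    rcases mul_eq_zero.mp him with e | e
    · exact_mod_cast (by
        have e' : ((d - a - c : ℤ) : ℝ) = 0 := e
        have e'' : d - a - c = 0 := by exact_mod_cast e'
        linarith : d = a + c)
    · exact absurd e (UpperHalfPlane.im_pos ρ).ne'
  have hb : b = -c := by
    rw [hd] at h2
    simp only [show a + c - a - c = 0 by ring, Int.cast_zero, zero_mul, zero_add,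
      Int.cast_eq_zero] at h2
    linarith
  have hr : a ^ 2 + a * c + c ^ 2 = (r : ℤ) := by
    rw [← hdet, Matrix.det_fin_two]
    show _ = a * d - b * c
    rw [hd, hb]
    ring
  have h3 : ∀ x y : ZMod 3, x ^ 2 + x * y + y ^ 2 ≠ 2 := by decide
  refine h3 (a : ZMod 3) (c : ZMod 3) ?_
  have := congrArg (fun z : ℤ => (z : ZMod 3)) hr
  push_cast at this
  rw [this, ← ZMod.natCast_mod, hr3]
  rfl

/-- `E₄(rτ)` does not vanish at the zeros of `E₄`. -/
theorem E4_scaled_ne_zero {r : ℕ} [NeZero r] (hr3 : r % 3 = 2) {τ : ℍ}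
    (h : ModularForm.E₄ τ = 0) : ModularForm.E₄ (posMat _ (det_diagN r) • τ) ≠ 0 := by
  intro h'
  obtain ⟨γ₁, hγ₁⟩ := Period.exists_smul_eq_of_E4_eq_zero h
  obtain ⟨γ₂, hγ₂⟩ := Period.exists_smul_eq_of_E4_eq_zero h'
  set M : Matrix (Fin 2) (Fin 2) ℤ := ((γ₂⁻¹ : SL(2, ℤ)) : Matrix (Fin 2) (Fin 2) ℤ) *
    (!![(r : ℤ), 0; 0, 1] * (γ₁ : Matrix (Fin 2) (Fin 2) ℤ))
  have hdet : M.det = (r : ℤ) := by
    rw [Matrix.det_mul, Matrix.det_mul, Matrix.SpecialLinearGroup.det_coe,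
      Matrix.SpecialLinearGroup.det_coe, Matrix.det_fin_two_of]
    ring
  have hM : 0 < M.det := by rw [hdet]; exact_mod_cast NeZero.pos r
  refine posMat_smul_rho_ne hr3 hM hdet ?_
  have heq : !![(r : ℤ), 0; 0, 1] * (γ₁ : Matrix (Fin 2) (Fin 2) ℤ) =
      (γ₂ : Matrix (Fin 2) (Fin 2) ℤ) * M := by
    rw [← Matrix.mul_assoc, ← Matrix.SpecialLinearGroup.coe_mul, mul_inv_cancel,
      Matrix.SpecialLinearGroup.coe_one, one_mul]
  have := posMat_smul_eq (det_diagN r) hM γ₁ γ₂ heq ρ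
  rw [hγ₁, ← hγ₂] at this
  exact ((MulAction.injective γ₂) this).symm

variable (r : ℕ) [NeZero r]

/-- `τ ↦ E₄(τ) E₄(rτ)² / Δ(τ)`. -/
def eFun (τ : ℍ) : ℂ :=
  ModularForm.E₄ τ * ModularForm.E₄ (posMat _ (det_diagN r) • τ) ^ 2 / ModularForm.discriminant τ

omit [NeZero r] in
theorem E4_smul (γ : SL(2, ℤ)) (τ : ℍ) :
    ModularForm.E₄ (γ • τ) = denom γ (τ : ℂ) ^ (4 : ℤ) * ModularForm.E₄ τ :=
  SlashInvariantForm.slash_action_eqn'' ModularForm.E₄
    (show Matrix.SpecialLinearGroup.mapGL ℝ γ ∈ (Matrix.SpecialLinearGroup.mapGL ℝ).range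
      from ⟨γ, rfl⟩) τ

theorem eFun_smul_of_eq (δ g : SL(2, ℤ)) {a d : ℕ} (b : ℤ) (ha : 0 < a) (hd : 0 < d)
    (heq : !![(r : ℤ), 0; 0, 1] * (δ : Matrix (Fin 2) (Fin 2) ℤ) =
      (g : Matrix (Fin 2) (Fin 2) ℤ) * !![(a : ℤ), b; 0, (d : ℤ)]) (τ : ℍ) :
    eFun r (δ • τ) = ((d : ℂ) ^ 8)⁻¹ *
      (ModularForm.E₄ τ * ModularForm.E₄ (posMat _ (det_upper_pos b ha hd) • τ) ^ 2 /
        ModularForm.discriminant τ) := by
  have hden : denom g ((posMat _ (det_upper_pos b ha hd) • τ : ℍ) : ℂ) * (d : ℂ) =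
      denom δ (τ : ℂ) := by
    rw [ModularGroup.denom_apply, ModularGroup.denom_apply, coe_posMat_upper]
    have h0 := congrFun (congrFun heq 1) 0
    have h1 := congrFun (congrFun heq 1) 1
    simp [Matrix.mul_apply, Fin.sum_univ_two] at h0 h1
    have hd' : (d : ℂ) ≠ 0 := Nat.cast_ne_zero.2 hd.ne'
    rw [h0, h1]
    push_cast
    field_simp
    ring
  rw [eFun, posMat_smul_eq (det_diagN r) (det_upper_pos b ha hd) δ g heq τ, disc_smul, E4_smul,
    E4_smul, ← hden]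
  simp only [zpow_ofNat]
  have := pow_ne_zero 12 (denom_ne_zero g (posMat _ (det_upper_pos b ha hd) • τ : ℍ))
  have hd' : (d : ℂ) ≠ 0 := Nat.cast_ne_zero.2 hd.ne'
  have := ModularForm.discriminant_ne_zero τ
  field_simp

/-- The series of `E₄`. -/
def e4Int : LaurentSeries ℂ := intSer ModularCurve.eisenstein4

omit [NeZero r] in
theorem hasQSeries_e4Int : HasQSeries 1 (ModularForm.E₄ : ℍ → ℂ) e4Int :=
  hasQSeries_intSer MCurve.qExp_E₄

theorem mdifferentiable_eFun : MDifferentiable 𝓘(ℂ) 𝓘(ℂ) (eFun r) := by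
  have hE : MDifferentiable 𝓘(ℂ) 𝓘(ℂ) (ModularForm.E₄ : ℍ → ℂ) := ModularFormClass.holo _
  have hD : MDifferentiable 𝓘(ℂ) 𝓘(ℂ) (ModularForm.discriminant : ℍ → ℂ) :=
    CuspFormClass.holo CuspForm.discriminant
  refine UpperHalfPlane.mdifferentiable_iff.mpr ?_
  exact ((UpperHalfPlane.mdifferentiable_iff.mp hE).mul ((UpperHalfPlane.mdifferentiable_iff.mp
    (mdifferentiable_comp_posMat hE _ (det_diagN r))).pow 2)).div
      (UpperHalfPlane.mdifferentiable_iff.mp hD) fun z _ => ModularForm.discriminant_ne_zero _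

theorem isModFun_eFun : IsModFun (Gamma0 r) (eFun r) := by
  refine ⟨mdifferentiable_eFun r, fun γ hγ τ => ?_, fun δ => ?_⟩
  · obtain ⟨k, hk⟩ : (r : ℤ) ∣ γ 1 0 :=
      (ZMod.intCast_zmod_eq_zero_iff_dvd _ r).mp (Gamma0_mem.mp hγ)
    have hdet : γ 0 0 * γ 1 1 - γ 0 1 * γ 1 0 = 1 := by
      rw [← Matrix.det_fin_two (γ : Matrix (Fin 2) (Fin 2) ℤ)]; exact γ.det_coe
    let g : SL(2, ℤ) := ⟨!![γ 0 0, (r : ℤ) * γ 0 1; k, γ 1 1],
      by rw [Matrix.det_fin_two_of]; linear_combination hdet + γ 0 1 * hk⟩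
    have heq : !![(r : ℤ), 0; 0, 1] * (γ : Matrix (Fin 2) (Fin 2) ℤ) =
        (g : Matrix (Fin 2) (Fin 2) ℤ) * !![(r : ℤ), 0; 0, ((1 : ℕ) : ℤ)] := by
      ext i j
      fin_cases i <;> fin_cases j <;> simp [g, Matrix.mul_apply, Fin.sum_univ_two] <;>
        linarith [hk]
    have h1 : !![(r : ℤ), 0; 0, 1] * ((1 : SL(2, ℤ)) : Matrix (Fin 2) (Fin 2) ℤ) =
        ((1 : SL(2, ℤ)) : Matrix (Fin 2) (Fin 2) ℤ) * !![(r : ℤ), 0; 0, ((1 : ℕ) : ℤ)] := by
      simp
    have e := eFun_smul_of_eq r 1 1 0 (NeZero.pos r) one_pos h1 τ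
    rw [one_smul] at e
    rw [eFun_smul_of_eq r γ g 0 (NeZero.pos r) one_pos heq τ, ← e]
  · have hdet : 0 < (!![(r : ℤ), 0; 0, 1] * (δ : Matrix (Fin 2) (Fin 2) ℤ)).det := by
      rw [Matrix.det_mul, δ.det_coe, mul_one]; exact det_diagN r
    obtain ⟨g, a, d, b, ha, hd, -, heq⟩ := exists_hermite _ hdet
    have hs := hasQSeries_e4Int.comp_upper one_pos b ha hd
    have hs1 := hasQSeries_e4Int.refine_width one_pos d hd.ne'
    have hs2 := hasQSeries_dInvSer.refine_width one_pos d hd.ne'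
    refine ⟨1 * d, _, by omega, (((hs1.mul (hs.pow 2)).mul hs2).smul (((d : ℂ) ^ 8)⁻¹)).congr
      (.of_forall fun τ => ?_)⟩
    rw [eFun_smul_of_eq r δ g b ha hd heq τ]
    simp only [Pi.mul_apply, Pi.pow_apply]
    ring

/-- The expansion at infinity has integer coefficients. -/
theorem exists_int_series_eFun :
    ∃ P : PowerSeries ℤ, HasQSeries 1 (eFun r) (HahnSeries.single (-1 : ℤ) 1 * intSer P) := by
  have hE := hasQSeries_e4Int
  have hEr : HasQSeries 1 (fun τ => ModularForm.E₄ (posMat _ (det_diagN r) • τ))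
      (intSer (PowerSeries.expand r (NeZero.ne r) ModularCurve.eisenstein4)) := by
    have := hE.comp_affine one_pos r 1 (NeZero.ne r) one_pos 0
      (fun τ => posMat _ (det_diagN r) • τ) (fun τ => by rw [coe_posMat_smul]; simp) 1 (by simp)
    have h1 : twist (1 : ℂˣ) e4Int = e4Int := by ext; simp
    rw [h1, mul_one, e4Int, intSer, ModField.expand_ofPowerSeries, ← PowerSeries.map_expand] at this
    exact this
  refine ⟨ModularCurve.eisenstein4 *
    PowerSeries.expand r (NeZero.ne r) ModularCurve.eisenstein4 ^ 2 *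
      ModularCurve.dedekindEtaUnitInv, ?_⟩
  have h := ((hE.mul (hEr.pow 2)).mul hasQSeries_dInvSer).congr (G := eFun r)
    (.of_forall fun τ => (div_eq_mul_inv _ _).symm)
  convert h using 1
  simp only [dInvSer, e4Int, intSer, map_mul, map_pow]
  ring

/-- Simple zeros above `j = 0`. -/
theorem analyticOrderAt_eFun (hr3 : r % 3 = 2) {τ : ℍ} (h : ModularForm.E₄ τ = 0) :
    analyticOrderAt (eFun r ∘ ofComplex) (τ : ℂ) = 1 := by
  have hE : MDifferentiable 𝓘(ℂ) 𝓘(ℂ) (ModularForm.E₄ : ℍ → ℂ) := ModularFormClass.holo _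
  have hD : MDifferentiable 𝓘(ℂ) 𝓘(ℂ) (ModularForm.discriminant : ℍ → ℂ) :=
    CuspFormClass.holo CuspForm.discriminant
  set G : ℂ → ℂ := fun z => ModularForm.E₄ (posMat _ (det_diagN r) • ofComplex z) ^ 2 *
    (ModularForm.discriminant (ofComplex z))⁻¹
  have hG : AnalyticAt ℂ G (τ : ℂ) :=
    ((analyticAt_comp_ofComplex (mdifferentiable_comp_posMat hE _ (det_diagN r)) τ).pow 2).mul
      ((analyticAt_comp_ofComplex hD τ).inv (by simp [ModularForm.discriminant_ne_zero]))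
  have hG0 : analyticOrderAt G (τ : ℂ) = 0 := by
    refine hG.analyticOrderAt_eq_zero.mpr ?_
    simp only [G, ofComplex_apply]
    exact mul_ne_zero (pow_ne_zero _ (E4_scaled_ne_zero hr3 h))
      (inv_ne_zero (ModularForm.discriminant_ne_zero _))
  have h1 : analyticOrderAt ((ModularForm.E₄ : ℍ → ℂ) ∘ ofComplex) (τ : ℂ) = 1 :=
    analyticOrderAt_eq_one_of_D hE h (by
      rw [Period.D_E4, h]
      simp [Period.not_common_zero τ h])
  rw [show eFun r ∘ ofComplex = ((ModularForm.E₄ : ℍ → ℂ) ∘ ofComplex) * G by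
      funext z
      simp only [Function.comp, Pi.mul_apply, G, eFun, div_eq_mul_inv]
      ring,
    analyticOrderAt_mul (analyticAt_comp_ofComplex hE τ) hG, h1, hG0, add_zero]

end Fermat.Agent.R59
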