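import Fermat.Agent.R59.Mazur.Gen.Defs
import Fermat.Agent.R59.Mazur.Three.Witness
import Fermat.Agent.LL.Mazur.CompPower
import Fermat.Agent.GalRep.Semistable.Bridge

/-!
# S59, unit F1: roots along the horizontal primes for `p = 3` and `p ≥ 5`

For `p = 3` the only prime exponent not prime to three over the line of `j` is at `j = 0`; the
function of `Witness` has order one there, so the order of a uniformiser is a unit.
-/

set_option autoImplicit false
set_option linter.style.haveILetI false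
set_option linter.unusedSectionVars false

noncomputable section

namespace Fermat.Agent.R59

open UpperHalfPlane CongruenceSubgroup IsLocalRing
open Fermat.Agent.GalRep Fermat.Agent.GalRep.Level Fermat.Agent.GalRep.Semistable
open Fermat.Agent.ModField
open Fermat.Agent.NewVec
open Fermat.Agent.GalRep.Model (chartRing)
open Fermat.Agent.Models (HasRootAt)
open Fermat.Agent.Period (jFun)
open scoped MatrixGroups Manifold

/-- Integral constants are fixed. -/
theorem fixedConst_intCast (A : ValuationSubring (AlgebraicClosure ℚ)) (z : ℤ) :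
    FixedConst A (z : AlgebraicClosure ℚ) := fun σ _ => map_intCast σ z

theorem shift_eFun_order {r : ℕ} [NeZero r] (hr3 : r % 3 = 2) (g : SL(2, ℤ)) {τ : ℍ}
    (h : ModularForm.E₄ τ = 0) :
    analyticOrderAt ((fun z => eFun r (g • z)) ∘ ofComplex) (τ : ℂ) = 1 := by
  have hE : MDifferentiable 𝓘(ℂ) 𝓘(ℂ) (ModularForm.E₄ : ℍ → ℂ) := ModularFormClass.holo _
  have hD : MDifferentiable 𝓘(ℂ) 𝓘(ℂ) (ModularForm.discriminant : ℍ → ℂ) :=
    CuspFormClass.holo CuspForm.discriminant
  let G₀ : ℍ → ℂ := fun z => ModularForm.E₄ (posMat _ (det_diagN r) • z) ^ 2 *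
    (ModularForm.discriminant z)⁻¹
  have hG₀ : MDifferentiable 𝓘(ℂ) 𝓘(ℂ) G₀ := UpperHalfPlane.mdifferentiable_iff.mpr
    (((UpperHalfPlane.mdifferentiable_iff.mp (mdifferentiable_comp_posMat hE _ (det_diagN r))).pow
      2).mul ((UpperHalfPlane.mdifferentiable_iff.mp hD).inv fun z _ =>
        ModularForm.discriminant_ne_zero _))
  let G : ℍ → ℂ := fun z => denom g (z : ℂ) ^ (4 : ℤ) * G₀ (g • z)
  have hG : MDifferentiable 𝓘(ℂ) 𝓘(ℂ) G :=
    (UpperHalfPlane.mdifferentiable_denom_zpow _ 4).mul (mdifferentiable_comp_smul hG₀ g)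
  have hg : ModularForm.E₄ (g • τ) = 0 := by rw [E4_smul, h, mul_zero]
  have h0 : analyticOrderAt (G ∘ ofComplex) (τ : ℂ) = 0 := by
    refine (analyticAt_comp_ofComplex hG τ).analyticOrderAt_eq_zero.mpr ?_
    rw [Function.comp_apply, ofComplex_apply]
    exact mul_ne_zero (zpow_ne_zero _ (denom_ne_zero _ _)) (mul_ne_zero
      (pow_ne_zero _ (E4_scaled_ne_zero hr3 hg)) (inv_ne_zero (ModularForm.discriminant_ne_zero _)))
  have h1 : analyticOrderAt ((ModularForm.E₄ : ℍ → ℂ) ∘ ofComplex) (τ : ℂ) = 1 :=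
    analyticOrderAt_eq_one_of_D hE h (by
      rw [Period.D_E4, h]
      simp [Period.not_common_zero τ h])
  rw [show (fun z => eFun r (g • z)) ∘ ofComplex =
      ((ModularForm.E₄ : ℍ → ℂ) ∘ ofComplex) * (G ∘ ofComplex) by
      funext z
      simp only [Function.comp, Pi.mul_apply, G, G₀, eFun, E4_smul g, div_eq_mul_inv]
      ring,
    analyticOrderAt_mul (analyticAt_comp_ofComplex hE τ) (analyticAt_comp_ofComplex hG τ), h1, h0,
    add_zero]

variable {A : ValuationSubring (AlgebraicClosure ℚ)} {q m' : ℕ} [Fact q.Prime] [NeZero q]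
  [NeZero m']

set_option maxHeartbeats 800000 in
/-- An element of the descended field with order one at every point above `j = 0`. -/
theorem exists_simple_zero [IsDiscreteValuationRing (oBase A (q * m'))] (hA : A.LiesOverPrime q)
    (hqm' : ¬ q ∣ m') {r : ℕ} (hr : r.Prime) (hrm : r ∣ m') (hr3 : r % 3 = 2) :
    ∃ y : Fld₀ (wBase A) (embO A (q * m')) q m', ∀ (τ : ℍ) (g : SL(2, ℤ)) (ψ : ℂ → ℂ)
      (hψ : AnalyticAt ℂ ψ 0) (h0 : ψ 0 ∈ upperHalfPlaneSet) (hd : deriv ψ 0 ≠ 0),
      ψ 0 = (τ : ℂ) → ModularForm.E₄ τ = 0 →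
      (locEmb hψ h0 hd (embO A (q * m'))
        (fShift (embO A (q * m')) g (y : Fld (embO A (q * m'))))).order = 1 := by
  have hq : q.Prime := Fact.out
  haveI : NeZero r := ⟨hr.ne_zero⟩
  haveI := finite_oBase (A := A) (M := q * m') hq hA rfl hqm'
  have hW := hasFixedConsts_oBase (A := A) (M := q * m')
  obtain ⟨P, hP⟩ := exists_int_series_eFun r
  let g₀ : LaurentSeries (AlgebraicClosure ℚ) := HahnSeries.single (-1 : ℤ) 1 *
    HahnSeries.ofPowerSeries ℤ _ (PowerSeries.map (Int.castRingHom (AlgebraicClosure ℚ)) P)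
  have hsingle : ∀ {R S : Type} [CommRing R] [CommRing S] (φ : R →+* S),
      lmap φ (HahnSeries.single (-1 : ℤ) 1) = HahnSeries.single (-1 : ℤ) 1 := by
    intro R S _ _ φ
    ext i
    rw [lmap_coeff, HahnSeries.coeff_single, HahnSeries.coeff_single]
    split_ifs <;> simp
  have hint : g₀ = lmap (Int.castRingHom (AlgebraicClosure ℚ))
      (HahnSeries.single (-1 : ℤ) (1 : ℤ) * HahnSeries.ofPowerSeries ℤ ℤ P) := by
    rw [map_mul, hsingle, lmap_ofPowerSeries_eq]
  have hg₀ : HasQSeries 1 (eFun r) (seriesToC g₀) := by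
    convert hP using 1
    rw [seriesToC_eq_lmap, map_mul, hsingle, lmap_ofPowerSeries_eq, Mazur3.intSer]
    congr 2
    ext k
    simp
  have hfix : ∀ i, FixedConst A (g₀.coeff i) := fun i => by
    rw [hint, lmap_coeff]
    exact fixedConst_intCast A _
  obtain ⟨φ, hφc, hφi, hφa, hφf, -⟩ := LL.Mazur.exists_lvl_fun (A := A) (M := q * m')
    (hrm.trans (dvd_mul_left m' q)) (isModFun_eFun r) hg₀ hfix
  let b : bddMF (embO A (q * m')) := ⟨φ, mem_bddMF_of_fixed hW hφa hφf⟩
  refine ⟨⟨toFld _ b, toFld_mem_fld₀ hW (hq.coprime_iff_not_dvd.mpr hqm') hφi hφa hφf⟩,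
    fun τ g ψ hψ h0 hd hτ h4 => ?_⟩
  show (locEmb hψ h0 hd _ (fShift _ g (toFld _ b))).order = 1
  rw [fShift_toFld, locEmb_toFld]
  set f := localAlg (q * m') hψ h0 (shift (q * m') g (b : MF (q * m')))
  have hord : f.order = ((1 : ℕ) : ℕ∞) := by
    rw [order_localAlg hψ h0 hd, hτ, Nat.cast_one, ← shift_eFun_order hr3 g h4]
    congr 1
    funext z
    show ((shift (q * m') g (b : MF (q * m')) : MF (q * m')) : ℍ → ℂ) (ofComplex z) = _
    rw [shift_apply]
    exact congrFun hφc _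
  have hf : f ≠ 0 := fun h => by rw [h, PowerSeries.order_zero] at hord; exact absurd hord (by simp)
  have hv : PowerSeries.constantCoeff (PowerSeries.divXPowOrder f) ≠ 0 := by
    rw [PowerSeries.constantCoeff_divXPowOrder]
    exact PowerSeries.coeff_order hf
  rw [← PowerSeries.X_pow_order_mul_divXPowOrder (f := f), hord]
  exact order_ofPS_X_pow_mul hv 1

variable {n : ℕ}

/-- The orders of the powers. -/
theorem dvd_order_div {O : Type} [CommRing O] [IsDomain O] {M : ℕ} [NeZero M] {E : Emb O M}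
    (L : Fld E →+* LaurentSeries ℂ) {x : Fld E} (hx : x ≠ 0) {a b : Fld E} (hab : x = a / b)
    (g : SL(2, ℤ)) (ha : (n : ℤ) ∣ (L (fShift E g a)).order)
    (hb : (n : ℤ) ∣ (L (fShift E g b)).order) : (n : ℤ) ∣ (L (fShift E g x)).order := by
  have hb0 : b ≠ 0 := fun h0 => hx (by rw [hab, h0, div_zero])
  have e : L (fShift E g a) = L (fShift E g x) * L (fShift E g b) := by
    rw [← map_mul, ← map_mul, hab, div_mul_cancel₀ _ hb0]
  have := congrArg HahnSeries.order e
  rw [HahnSeries.order_mul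
    ((map_ne_zero_iff L L.injective).mpr ((map_ne_zero_iff _ (fShift E g).injective).mpr hx))
    ((map_ne_zero_iff L L.injective).mpr ((map_ne_zero_iff _ (fShift E g).injective).mpr hb0))]
    at this
  rw [show (L (fShift E g x)).order =
    (L (fShift E g a)).order - (L (fShift E g b)).order by omega]
  exact dvd_sub ha hb

/-- At `p ≥ 5` the exponent `6 M` serves. -/
theorem horRoots_six (hA : A.LiesOverPrime q) (hqm' : ¬ q ∣ m') (p : ℕ)
    [IsDiscreteValuationRing (oBase A (q * m'))] :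
    HorRoots (wBase A) (embO A (q * m')) q m' p (6 * (q * m')) := by
  obtain ⟨hWdvr, -, -⟩ := wBase_props A (Fact.out : q.Prime) hA
  haveI := hWdvr
  haveI := finite_oBase (A := A) (M := q * m') Fact.out hA rfl hqm'
  exact fun w hw Q hQ hQ0 hQq x hx a b ha hb hab => by
    haveI := hQ
    exact hasRootAt_horizontal (natCast_mem_maximal (A := A) (M := q * m') Fact.out hA rfl hqm') hw
      Q hQ0 hQq hx ha hb hab

set_option maxHeartbeats 1600000 in
set_option synthInstance.maxHeartbeats 200000 in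
/-- At `p = 3` the exponent `2 M` serves, given a prime `r ≡ 2 (mod 3)` of the level. -/
theorem horRoots_three (hA : A.LiesOverPrime q) (hqm' : ¬ q ∣ m') {r : ℕ} (hr : r.Prime)
    (hrm : r ∣ m') (hr3 : r % 3 = 2) [IsDiscreteValuationRing (oBase A (q * m'))] :
    HorRoots (wBase A) (embO A (q * m')) q m' 3 (2 * (q * m')) := by
  obtain ⟨hWdvr, -, -⟩ := wBase_props A (Fact.out : q.Prime) hA
  haveI := hWdvr
  haveI := finite_oBase (A := A) (M := q * m') Fact.out hA rfl hqm'
  have hqO := natCast_mem_maximal (A := A) (M := q * m') Fact.out hA rfl hqm'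
  set E := embO A (q * m')
  obtain ⟨y, hy⟩ := exists_simple_zero hA hqm' hr hrm hr3
  intro w hw Q hQ hQ0 hQq x hx a b ha hb hab
  haveI := hQ
  have hx' : (x : Fld E) ≠ 0 := fun h => hx (Subtype.ext h)
  -- a divisor of `2 M` as the order of a uniformiser
  have hgood : ∀ (L : Fld E →+* LaurentSeries ℂ) (g : SL(2, ℤ)) (k i : ℤ), k ≠ 0 →
      k ∣ ((2 * (q * m') : ℕ) : ℤ) → ((3 : ℕ) : ℤ) ∣ (L (fShift E g (x : Fld E))).order →
      (L (fShift E g ((x ^ (2 * (q * m')) : Fld₀ (wBase A) E q m') : Fld E))).order = i * k →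
      ((3 : ℕ) : ℤ) ∣ i := by
    intro L g k i hk hkD ⟨o, ho⟩ hi
    obtain ⟨l, hl⟩ := hkD
    rw [SubmonoidClass.coe_pow, map_pow, map_pow, HahnSeries.order_pow, nsmul_eq_mul, ho] at hi
    refine ⟨l * o, mul_right_cancel₀ hk ?_⟩
    rw [← hi, hl]
    ring
  have hne : ∀ c : ℂ, c ≠ 0 → eOf c ∣ 2 * (q * m') := fun c hc => by
    unfold eOf
    rw [if_neg hc]
    split_ifs
    · exact dvd_mul_right _ _
    · exact one_dvd _
  have hloc : ∀ (ψ : ℂ → ℂ) (hψ : AnalyticAt ℂ ψ 0) (h0 : ψ 0 ∈ upperHalfPlaneSet)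
      (hd : deriv ψ 0 ≠ 0) (g : SL(2, ℤ)),
      ((3 : ℕ) : ℤ) ∣ (locEmb hψ h0 hd E (fShift E g (x : Fld E))).order :=
    fun ψ hψ h0 hd g => dvd_order_div _ hx' hab g (dvd_order_locEmb hψ h0 hd ha g)
      (dvd_order_locEmb hψ h0 hd hb g)
  rcases hw with rfl | rfl
  · refine hasRootAt_of_valuation (fun g => by rw [coe_jF₀, fShift_jF])
      (by rw [coe_jF₀]; exact aeval_jF_injective E)
      (by rw [coe_jF₀]; exact fixedRational_jF E) hqO Q hQ0 hQq (pow_ne_zero _ hx) fun c => ?_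
    obtain ⟨τ, rfl⟩ := jFun_surjective c
    obtain ⟨ψ, hψ, h0, hψ0, hd, he⟩ := exists_jCoord (q * m') τ
    refine ⟨locEmb hψ h0 hd E, eOf (jFun τ), ⟨locEmb_algebraMap hψ h0 hd, eOf (jFun τ),
      PowerSeries.C (jFun τ) + PowerSeries.X ^ eOf (jFun τ), 1, eOf_pos _, dvd_rfl, ?_,
      by rw [add_sub_cancel_left, mul_one], by simp⟩, fun g k hk hkD hk' i hi => ?_⟩
    · rw [coe_jF₀, jF, locEmb_toFld]; exact congrArg _ he
    rcases eq_or_ne (jFun τ) 0 with hc | hc
    · have h4 : ModularForm.E₄ τ = 0 := by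
        simpa [jFun, ModularForm.discriminant_ne_zero] using hc
      have := hk' y
      rw [hy τ g ψ hψ h0 hd hψ0 h4] at this
      exact hgood _ g k i hk (this.trans (one_dvd _)) (hloc ψ hψ h0 hd g) hi
    · exact hgood _ g k i hk (hkD.trans (Int.natCast_dvd_natCast.mpr (hne _ hc)))
        (hloc ψ hψ h0 hd g) hi
  · refine hasRootAt_of_valuation (fun g => by rw [coe_inv_jF₀, map_inv₀, fShift_jF])
      (by rw [coe_inv_jF₀]; exact aeval_inv_jF_injective E)
      (by rw [coe_inv_jF₀]; exact fixedRational_inv_jF E) hqO Q hQ0 hQq (pow_ne_zero _ hx)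
      fun c => ?_
    rw [coe_inv_jF₀]
    rcases eq_or_ne c 0 with rfl | hc
    · refine ⟨toLS E, q * m', centred_toLS dvd_rfl, fun g k hk hkD _ i hi => ?_⟩
      exact hgood _ g k i hk (hkD.trans (Int.natCast_dvd_natCast.mpr (dvd_mul_left _ _)))
        (dvd_order_div _ hx' hab g (dvd_order_toLS ha g) (dvd_order_toLS hb g)) hi
    · obtain ⟨τ, hτ⟩ := jFun_surjective c⁻¹
      obtain ⟨ψ, hψ, h0, -, hd, he⟩ := exists_jCoord (q * m') τ
      rw [hτ] at he
      set e := eOf c⁻¹ with he'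
      set u : PowerSeries ℂ := PowerSeries.C c⁻¹ + PowerSeries.X ^ e
      have hcu : PowerSeries.constantCoeff u = c⁻¹ := by
        simp [u, zero_pow (eOf_pos c⁻¹).ne', he']
      have huu : u⁻¹ * u = 1 := PowerSeries.inv_mul_cancel u (hcu ▸ inv_ne_zero hc)
      have hu : locEmb hψ h0 hd E (jF E) = HahnSeries.ofPowerSeries ℤ ℂ u := by
        rw [jF, locEmb_toFld]; exact congrArg _ he
      refine ⟨locEmb hψ h0 hd E, e, ⟨locEmb_algebraMap hψ h0 hd, e, u⁻¹,
        -(PowerSeries.C c * u⁻¹), eOf_pos _, dvd_rfl, ?_, ?_, ?_⟩, fun g k hk hkD _ i hi =>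
          hgood _ g k i hk (hkD.trans (Int.natCast_dvd_natCast.mpr (hne _ (inv_ne_zero hc))))
            (hloc ψ hψ h0 hd g) hi⟩
      · rw [map_inv₀, hu]
        exact (eq_inv_of_mul_eq_one_left (by rw [← map_mul, huu, map_one])).symm
      · have hcc : PowerSeries.C c * PowerSeries.C c⁻¹ = 1 := by
          rw [← map_mul, mul_inv_cancel₀ hc, map_one]
        have : PowerSeries.C c * u = 1 + PowerSeries.C c * PowerSeries.X ^ e := by
          simp only [u, mul_add, hcc]
        linear_combination PowerSeries.C c * huu - u⁻¹ * this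
      · rw [map_neg, neg_ne_zero, map_mul, PowerSeries.constantCoeff_C,
          PowerSeries.constantCoeff_inv, hcu, inv_inv]
        exact mul_ne_zero hc hc

end Fermat.Agent.R59
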