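import Fermat.Agent.LL.Mazur.TameOdd

/-!
# S59, unit F1 (`p = 3`): ramification over the line of `j` in odd characteristic, exponent three
-/

set_option autoImplicit false
set_option linter.style.haveILetI false
set_option linter.unusedSectionVars false

noncomputable section

namespace Fermat.Agent.R59

open Fermat.Agent.MCurve.Spec
open Fermat.Agent.MCurve
open AlgebraicCurve ModularCurve Polynomial IsLocalRing
open Fermat.Agent.GalRep.Model (Lev)

local notation "Q̄" => AlgebraicClosure ℚ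

/-- A root of `256 (λ² - λ + 1)³ - c (λ² - λ)²` of multiplicity divisible by three is a root of
`λ² - λ + 1`, triple, and `c = 0`. -/
theorem rootMultiplicity_lam_three {k : Type*} [Field k] (h2 : (2 : k) ≠ 0) (h3 : (3 : k) ≠ 0)
    (c β : k)
    (hpos : 0 < rootMultiplicity β
      (256 * (X ^ 2 - X + 1) ^ 3 - C c * ((X - 1) * X) ^ 2 : k[X]))
    (hdvd : 3 ∣ rootMultiplicity β (256 * (X ^ 2 - X + 1) ^ 3 - C c * ((X - 1) * X) ^ 2 : k[X])) :
    rootMultiplicity β (256 * (X ^ 2 - X + 1) ^ 3 - C c * ((X - 1) * X) ^ 2 : k[X]) = 3 ∧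
      c = 0 := by
  set P : k[X] := 256 * (X ^ 2 - X + 1) ^ 3 - C c * ((X - 1) * X) ^ 2 with hP
  have h256 : (256 : k) ≠ 0 := by
    rw [show (256 : k) = 2 ^ 8 by norm_num]; exact pow_ne_zero 8 h2
  have h0 : P.coeff 0 = 256 := by
    rw [coeff_zero_eq_eval_zero, hP]
    simp
  have hP0 : P ≠ 0 := fun h => h256 (by rw [← h0, h, coeff_zero])
  have hdeg : P.natDegree ≤ 6 := by
    rw [hP]
    compute_degree
  have hle6 : rootMultiplicity β P ≤ 6 := by
    have := natDegree_le_of_dvd (pow_rootMultiplicity_dvd P β) hP0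
    rw [natDegree_pow, natDegree_X_sub_C, mul_one] at this
    omega
  have h3le : (X - C β) ^ 3 ∣ P :=
    (pow_dvd_pow _ (Nat.le_of_dvd hpos hdvd)).trans (pow_rootMultiplicity_dvd P β)
  have hsym : P.comp (1 - X) = P := by
    rw [hP]
    simp only [sub_comp, mul_comp, pow_comp, add_comp, one_comp, X_comp, C_comp]
    rw [show (256 : k[X]).comp (1 - X) = 256 from ofNat_comp ..]
    ring
  -- the product of the two symmetric cubes is `P / 256`
  have hsq : ((X - C β) * (X - C (1 - β))) ^ 3 ∣ P := by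
    by_cases hβ : β = 1 - β
    · have h6 : rootMultiplicity β P = 6 := by
        by_contra h6
        have hn : rootMultiplicity β P = 3 := by omega
        obtain ⟨R, hR, hRβ⟩ := exists_eq_pow_rootMultiplicity_mul_and_not_dvd P hP0 β
        rw [hn] at hR
        have hR' : P = (X - C β) ^ 3 * -R.comp (1 - X) := by
          conv_lhs => rw [← hsym, hR]
          rw [mul_comp, pow_comp, sub_comp, X_comp, C_comp]
          conv_rhs => arg 1; rw [hβ, map_sub, map_one]
          ring
        refine hRβ (dvd_iff_isRoot.mpr ?_)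
        have h1 := mul_left_cancel₀ (pow_ne_zero 3 (X_sub_C_ne_zero β)) (hR.symm.trans hR')
        have h4 : R.eval β = -R.eval β := by
          conv_lhs => rw [h1]
          rw [eval_neg, eval_comp, eval_sub, eval_one, eval_X, ← hβ]
        exact (mul_eq_zero.mp (show (2 : k) * R.eval β = 0 by linear_combination h4)).resolve_left h2
      rw [← hβ, ← pow_two, ← pow_mul]
      exact (pow_dvd_pow _ (by omega)).trans (pow_rootMultiplicity_dvd P β)
    · rw [mul_pow]
      refine IsCoprime.mul_dvd ((isCoprime_X_sub_C_of_isUnit_sub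
        (sub_ne_zero.mpr hβ).isUnit).pow) h3le ?_
      obtain ⟨R, hR⟩ := h3le
      refine ⟨-R.comp (1 - X), ?_⟩
      conv_lhs => rw [← hsym, hR]
      rw [mul_comp, pow_comp, sub_comp, X_comp, C_comp, map_sub, map_one]
      ring
  obtain ⟨R, hR⟩ := hsq
  set S : k[X] := (X - C β) * (X - C (1 - β)) with hS
  have hSd : S.natDegree = 2 := by
    rw [hS, natDegree_mul (X_sub_C_ne_zero _) (X_sub_C_ne_zero _), natDegree_X_sub_C,
      natDegree_X_sub_C]
  have hR0 : R ≠ 0 := fun h => hP0 (by rw [hR, h, mul_zero])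
  have hRd : R.natDegree = 0 := by
    have h1 : P.natDegree = 6 + R.natDegree := by
      rw [hR, natDegree_mul (pow_ne_zero 3 (fun h => by rw [h] at hSd; simp at hSd)) hR0,
        natDegree_pow, hSd]
    omega
  obtain ⟨e, rfl⟩ := natDegree_eq_zero.mp hRd
  -- `P (x) = e (x² - x + γ)³`
  set γ := β * (1 - β) with hγ
  have heval : ∀ x : k, 256 * (x ^ 2 - x + 1) ^ 3 - c * ((x - 1) * x) ^ 2 =
      e * (x ^ 2 - x + γ) ^ 3 := fun x => by
    have h1 := congrArg (eval x) hR
    rw [hP, hS] at h1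
    simp at h1
    rw [hγ]
    linear_combination h1
  have e0 := heval 0
  have e1 := congrArg (fun f : k[X] => f.derivative.eval 0) hR
  rw [hP, hS] at e1
  simp [derivative_pow] at e1
  have he : e * γ ^ 3 = 256 := by linear_combination -e0
  have hγ1 : γ = 1 := by
    have hγ0 : γ ≠ 0 := fun h => h256 (by rw [← he, h]; ring)
    have hd : (768 : k) * (γ - 1) = 0 := by
      rw [hγ] at he hγ0 ⊢
      linear_combination -(β * (1 - β)) * e1 + 3 * he
    rcases mul_eq_zero.mp hd with h | h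
    · rw [show (768 : k) = 256 * 3 by norm_num] at h
      exact absurd h (mul_ne_zero h256 h3)
    · exact sub_eq_zero.mp h
  rw [hγ1, one_pow, mul_one] at he
  have hc : c = 0 := by
    by_contra hc
    have h1 := heval (-1)
    rw [hγ1, he] at h1
    have : c * (4 : k) = 0 := by linear_combination -h1
    rcases mul_eq_zero.mp this with h | h
    · exact hc h
    · rw [show (4 : k) = 2 ^ 2 by norm_num] at h
      exact pow_ne_zero 2 h2 h
  refine ⟨?_, hc⟩
  have hβ : β ≠ 1 - β := fun h => h3 (by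
    have h4 : (4 : k) * γ = 1 := by rw [hγ, ← h]; linear_combination (2 * β + 1) * h
    rw [hγ1] at h4
    linear_combination h4)
  have hS3 : S ^ 3 * C e = (X - C β) ^ 3 * ((X - C (1 - β)) ^ 3 * C e) := by
    rw [hS]; ring
  rw [hR, hS3]
  have hne : (X - C (1 - β)) ^ 3 * C e ≠ 0 :=
    mul_ne_zero (pow_ne_zero 3 (X_sub_C_ne_zero _)) (C_ne_zero.mpr (he ▸ h256))
  rw [mul_comm ((X - C β) ^ 3), rootMultiplicity_mul_X_sub_C_pow hne, rootMultiplicity_eq_zero]
  intro h
  rw [IsRoot.def] at h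
  simp at h
  rcases h with h | h
  · exact hβ (by linear_combination h)
  · exact h256 (he ▸ h)

variable {M : ℕ} [NeZero M] (A : ValuationSubring Q̄) [hu : Fact (IsUnit (M : A))] {q : ℕ}
  [hq : Fact q.Prime] (hA : A.LiesOverPrime q)

local notation "k" => ResidueField A
local notation "Jq" => qExpand (ResidueField A) M (jqModC (ResidueField A))

set_option maxHeartbeats 1600000 in
include hA in
/-- Some `j - c`, or `j⁻¹`, has order prime to `3` at every non-trivial place, apart from a triple `j`. -/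
theorem exists_tame_three (hq2 : q ≠ 2) (hq3 : q ≠ 3) (hpM : ¬ 3 ∣ M) (h2 : 2 ∣ M)
    (h5 : 5 ≤ M)
    (Wv : ValuationSubring (redFld M A))
    (hk : ∀ (x : redFld M A) (c : k), (x : LaurentSeries k) = HahnSeries.C c → x ∈ Wv)
    (hne : Wv ≠ ⊤) :
    ∃ u : redFld M A, u ≠ 0 ∧ Wv.valuation u < 1 ∧
      (∀ x : redFld M A, x ≠ 0 → ∃ n : ℤ, Wv.valuation x = Wv.valuation u ^ n) ∧
      ∃ n : ℕ, 0 < n ∧
        ((∃ (c : k) (z : redFld M A), (z : LaurentSeries k) = Jq - HahnSeries.C c ∧
            Wv.valuation z = Wv.valuation u ^ n ∧ (¬ 3 ∣ n ∨ n = 3 ∧ c = 0)) ∨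
          ¬ 3 ∣ n ∧
            ∃ z : redFld M A, (z : LaurentSeries k) = Jq ∧ Wv.valuation z⁻¹ = Wv.valuation u ^ n) := by
  classical
  haveI := GalRep.charP_residue (A := A) hq.out hA
  let L : Lev M := levTwo h2 h5
  have hm : L.m = 2 := rfl
  obtain ⟨V, hle, hV, hker⟩ := exists_gauss_rS A L
  obtain ⟨ψ, hψ⟩ := exists_redEmb A hle hker
  obtain ⟨V', hV'⟩ := exists_valuationSubring_comap ψ Wv
  let f : intHol M A → redFld M A := fun x => ⟨rS A x, rS_mem_redFld A x⟩
  let ch : intHol M A → chart A (jK A L) := fun x => ⟨x, intHol_le_chart A L x.2⟩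
  have hred : ∀ x, ψ (f x) = hV.red (ch x) := fun x => hψ x
  have h30 : (3 : k) ≠ 0 := fun h => hq3 ((Nat.prime_dvd_prime_iff_eq hq.out Nat.prime_three).mp
    ((CharP.cast_eq_zero_iff k q 3).mp (by exact_mod_cast h)))
  have h20 : (2 : k) ≠ 0 := fun h => hq2 ((Nat.prime_dvd_prime_iff_eq hq.out Nat.prime_two).mp
    ((CharP.cast_eq_zero_iff k q 2).mp (by exact_mod_cast h)))
  -- constants
  let cI : A → intHol M A := fun a => ⟨_, lvlHol_le_intHol A (algebraMap_mem_lvlHol A a)⟩
  have hcI : ∀ a, (f (cI a) : LaurentSeries k) = HahnSeries.C (residue A a) := rS_algebraMap A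
  have hcψ : ∀ a, ψ (f (cI a)) = hV.theta (residue A a) := fun a => by
    rw [hred, hV.theta_residue]; rfl
  have hk' : ∀ c, hV.theta c ∈ V' := fun c => by
    obtain ⟨a, rfl⟩ := residue_surjective c
    rw [← hcψ, hV']
    exact hk _ _ (hcI a)
  let jI : intHol M A := ⟨_, lvlHol_le_intHol A (jK_mem_lvlHol A L)⟩
  have hjI : (f jI : LaurentSeries k) = Jq := rS_jK A L
  have hjψ : ψ (f jI) = hV.redT := hred jI
  -- conjugates of a non-zero reduction
  have hconj : ∀ x : intHol M A, f x ≠ 0 → ∀ (σ : LK M A ≃ₐ[Q̄] LK M A), σ ∈ fullG M A →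
      ∀ hy : σ (x : LK M A) ∈ chart A (jK A L), hV.red ⟨_, hy⟩ ≠ 0 := fun x hx σ hσ hy h => by
    obtain ⟨hσx, hne0⟩ := rS_fullG_ne_zero A (x := x) (fun h0 => hx (Subtype.ext h0)) hσ
    exact hne0 ((hker ⟨_, hσx⟩).mp h)
  have hquot : ∀ (τ : V'.ValueGroup), τ ≠ 0 →
      (∀ x : intHol M A, f x ≠ 0 → ∃ a : ℤ, V'.valuation (ψ (f x)) = τ ^ a) →
      ∀ y : redFld M A, y ≠ 0 → ∃ a : ℤ, V'.valuation (ψ y) = τ ^ a := fun τ hτ h y hy => by
    obtain ⟨a, b, hab⟩ := (mem_redFld_iff A).mp y.2
    have hb : f b ≠ 0 := fun h0 => hy (Subtype.ext (by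
      rw [← hab, show rS A b = 0 from congrArg Subtype.val h0, div_zero]; rfl))
    have ha : f a ≠ 0 := fun h0 => hy (Subtype.ext (by
      rw [← hab, show rS A a = 0 from congrArg Subtype.val h0, zero_div]; rfl))
    obtain ⟨i, hi⟩ := h a ha
    obtain ⟨j, hj⟩ := h b hb
    refine ⟨i - j, ?_⟩
    rw [show y = f a / f b from Subtype.ext hab.symm, map_div₀, map_div₀, hi, hj, zpow_sub₀ hτ]
  by_cases hJ : hV.redT ∈ V'
  · -- finite places
    by_cases hno : ∃ c, V'.valuation (hV.redT - hV.theta c) < 1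
    swap
    · push Not at hno
      refine absurd ?_ hne
      refine SetLike.ext fun y => iff_of_true ?_ trivial
      rcases eq_or_ne y 0 with rfl | hy
      · exact zero_mem Wv
      obtain ⟨a, b, hab⟩ := (mem_redFld_iff A).mp y.2
      have hone : ∀ x : intHol M A, f x ≠ 0 → V'.valuation (ψ (f x)) = 1 := fun x hx => by
        rw [hred]
        refine hV.red_val_eq_one V' hk' hJ (fun c => not_lt.mpr (hno c)) fun h0 => hx ?_
        exact (map_eq_zero ψ).mp ((hred x).trans h0)
      have hb : f b ≠ 0 := fun h0 => hy (Subtype.ext (by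
        rw [← hab, show rS A b = 0 from congrArg Subtype.val h0, div_zero]; rfl))
      have ha : f a ≠ 0 := fun h0 => hy (Subtype.ext (by
        rw [← hab, show rS A a = 0 from congrArg Subtype.val h0, zero_div]; rfl))
      rw [← hV', ← V'.valuation_le_one_iff, show y = f a / f b from Subtype.ext hab.symm,
        map_div₀, map_div₀, hone a ha, hone b hb, div_one]
    obtain ⟨c, hc⟩ := hno
    let W := coverW A L
    have hres : residue V' ⟨_, hJ⟩ = residue V' ⟨_, hk' c⟩ := by
      rw [← sub_eq_zero, ← map_sub, residue_eq_zero_iff]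
      exact (V'.valuation_lt_one_iff _).mpr hc
    obtain ⟨χ, hχ, hχc, hcomp⟩ := W.exists_compat hV V' hk' hJ hres
    obtain ⟨U⟩ := unif_coverW A L χ hχ
    haveI := W.fin.hasPrincipalDivisors
    set D := W.disc χ hχ
    have hcard : Nat.card D.stab = 1 := card_stab_coverW A L χ hχ
    set τ := V'.valuation (hV.red U.t)
    have hτ0 : τ ≠ 0 := (_root_.map_ne_zero _).mpr (hcomp.rho_t_ne_zero U)
    have hτ1 : τ < 1 := hcomp.rho_t_lt_one U
    have hall := hquot τ hτ0 fun x hx => ⟨D.tot (x : LK M A), by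
      rw [hred]
      exact hcomp.val_eq_zpow U (x := ch x)
        fun g => hconj x hx (g : LK M A ≃ₐ[Q̄] LK M A) (W.le g.2) (D.act g (ch x)).2⟩
    obtain ⟨a, rfl⟩ := residue_surjective c
    set z := f jI - f (cI a) with hz
    have hzs : (z : LaurentSeries k) = Jq - HahnSeries.C (residue A a) := by
      rw [← hjI, ← hcI]; rfl
    set P : k[X] := 256 * (X ^ 2 - X + 1) ^ 3 - C (residue A a) * ((X - 1) * X) ^ 2 with hP
    have hPmap : (W.N - C a * W.D).map (residue A) = P := by
      rw [Polynomial.map_sub, Polynomial.map_mul, map_C, coverW_N_map A L hm, coverW_D_map A L hm]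
    have hP0 : P ≠ 0 := fun h => by
      have h1 := congrArg (eval 0) h
      rw [hP] at h1
      simp at h1
      exact pow_ne_zero 8 h20 (by linear_combination h1)
    set n := rootMultiplicity (χ W.T') P
    have hval : V'.valuation (ψ z) = τ ^ n := by
      have e : V'.valuation (hV.red ((⟨W.t₀, self_mem_chart A _⟩ : chart A W.t₀) - W.cst a)) *
          V'.valuation (hV.red (W.pol W.D)) = V'.valuation (hV.red (W.pol (W.N - C a * W.D))) :=
        (map_mul V'.valuation _ _).symm.trans (congrArg V'.valuation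
          ((map_mul hV.red _ _).symm.trans (congrArg hV.red (W.pol_rel a))))
      have h1 : V'.valuation (hV.red (W.pol (W.N - C a * W.D))) = τ ^ n := by
        have := hcomp.val_polyB U (P := W.N - C a * W.D) (by rw [hPmap]; exact hP0)
        rw [hcard, one_mul] at this
        rw [show n = rootMultiplicity (χ W.T') ((W.N - C a * W.D).map (residue A)) by rw [hPmap]]
        exact this
      have hD1 : V'.valuation (hV.red (W.pol W.D)) = 1 := hcomp.eq_one (y := W.pol W.D) (by
        show χ _ ≠ 0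
        rw [Cover.hom_pol hχ]
        exact Cover.D_eval_ne hχ)
      rw [h1, hD1, mul_one] at e
      rw [← e, hz, map_sub ψ, hjψ, hred (cI a)]
      exact congrArg V'.valuation (map_sub hV.red _ _).symm
    have hn : 0 < n := Nat.pos_of_ne_zero fun h0 => by
      rw [h0, pow_zero, hz, map_sub, hjψ, hcψ] at hval
      exact hc.ne hval
    obtain ⟨u, hu0, hu1, hux, m, hm0, hmn, hzu⟩ := exists_uniformiser ψ Wv hV' hτ0 hτ1 hall hn hval
    refine ⟨u, hu0, hu1, hux, m, hm0, Or.inl ⟨_, z, hzs, hzu, ?_⟩⟩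
    by_cases h3 : 3 ∣ m
    · obtain ⟨hn3, ha⟩ := rootMultiplicity_lam_three h20 h30 _ _ hn (h3.trans hmn)
      exact Or.inr ⟨Nat.dvd_antisymm (hn3 ▸ hmn) h3, ha⟩
    · exact Or.inl h3
  · -- places over infinity
    let W := coverI A L
    have hVI : IsGauss A W.t₀ V := hV.inv
    have hj0 : jK A L ≠ 0 := fun h => transcendental_jK A L (h ▸ isAlgebraic_zero)
    have hT0 : hV.redT ≠ 0 := fun h => hJ (h ▸ zero_mem V')
    have hredI : hVI.redT = hV.redT⁻¹ := by
      refine eq_inv_of_mul_eq_one_left ?_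
      show residue V _ * residue V _ = 1
      rw [← map_mul, ← map_one (residue V)]
      exact congrArg _ (Subtype.ext (inv_mul_cancel₀ hj0))
    have hkI : ∀ c, hVI.theta c ∈ V' := hk'
    have htI : hVI.redT ∈ V' := by rw [hredI]; exact (V'.mem_or_inv_mem _).resolve_left hJ
    have hlt : V'.valuation hVI.redT < 1 := by
      rw [hredI, map_inv₀, inv_lt_one₀ (zero_lt_iff.mpr ((_root_.map_ne_zero _).mpr hT0))]
      exact not_le.mp fun h => hJ ((V'.valuation_le_one_iff _).mp h)
    have hc0 : residue V' ⟨_, htI⟩ = residue V' ⟨_, hkI 0⟩ := by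
      rw [show (⟨_, hkI 0⟩ : V') = 0 from Subtype.ext (map_zero _), map_zero, residue_eq_zero_iff]
      exact (V'.valuation_lt_one_iff _).mpr hlt
    obtain ⟨χ, hχ, hχ0, hcomp⟩ := W.exists_compat hVI V' hkI htI hc0
    obtain ⟨U⟩ := unif_coverI A L hχ hχ0
    haveI := W.fin.hasPrincipalDivisors
    set D := W.disc χ hχ
    set e := Nat.card D.stab
    have he : e ∣ L.e := card_stab_coverI_dvd A L hχ hχ0
    set τ := V'.valuation (hVI.red U.t)
    have hτ0 : τ ≠ 0 := (_root_.map_ne_zero _).mpr (hcomp.rho_t_ne_zero U)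
    have hτ1 : τ < 1 := hcomp.rho_t_lt_one U
    -- the value of `j⁻¹`
    have hNm := coverI_N_map A L hm
    set PN : k[X] := X ^ 2 * ((1 + C (residue A (beta0 A L) - 1) * X) *
      (1 + C (residue A (beta0 A L)) * X)) ^ 2
    have hroot : PN.IsRoot (χ W.T') := by
      have e1 : (⟨W.t₀, self_mem_chart A _⟩ : chart A W.t₀) * W.pol W.D = W.pol W.N :=
        Subtype.ext W.rel
      have h1 := congrArg χ e1
      rw [map_mul, hχ0, zero_mul, Cover.hom_pol hχ] at h1
      rw [IsRoot.def, ← hNm]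
      exact h1.symm
    have hPN0 : PN ≠ 0 := mul_ne_zero (pow_ne_zero _ X_ne_zero) (pow_ne_zero _ (mul_ne_zero
      (fun h => by simpa using congrArg (eval 0) h) (fun h => by simpa using congrArg (eval 0) h)))
    have hn2 : rootMultiplicity (χ W.T') PN = 2 :=
      rootMultiplicity_sq_eq (fun h => one_ne_zero (α := k) (by linear_combination -h)) hroot
    have hvalT : V'.valuation hVI.redT = τ ^ (e * 2) := by
      have e1 : (⟨W.t₀, self_mem_chart A _⟩ : chart A W.t₀) * W.pol W.D = W.pol W.N :=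
        Subtype.ext W.rel
      have h1 := congrArg (fun y : chart A W.t₀ => V'.valuation (hVI.red y)) e1
      simp only [map_mul] at h1
      have hD1 : V'.valuation (hVI.red (W.pol W.D)) = 1 := hcomp.eq_one (y := W.pol W.D) (by
        show χ _ ≠ 0
        rw [Cover.hom_pol hχ]
        exact Cover.D_eval_ne hχ)
      have h2' := hcomp.val_polyB U (P := W.N) (by rw [hNm]; exact hPN0)
      rw [show rootMultiplicity (D.χ D.T') (W.N.map (residue A)) = 2 by rw [hNm]; exact hn2] at h2'
      rw [hD1, mul_one] at h1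
      exact h1.trans h2'
    have hall := hquot τ hτ0 fun x hx => by
      obtain ⟨n₀, hn₀⟩ := exists_inv_pow_mul_mem hj0 (ch x).2
      have hs : ∀ σ ∈ fullG M A,
          σ ((x : LK M A) * (jK A L)⁻¹ ^ n₀) = σ (x : LK M A) * (jK A L)⁻¹ ^ n₀ := fun σ hσ => by
        rw [map_mul, map_pow, map_inv₀, fullG_jK A L hσ]
      have hsplit : ∀ (y : chart A (jK A L))
          (hy : (y : LK M A) * (jK A L)⁻¹ ^ n₀ ∈ chart A W.t₀),
          hVI.red ⟨_, hy⟩ = hV.red y * hVI.redT ^ n₀ := fun y hy => by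
        show residue V _ = residue V _ * residue V _ ^ n₀
        rw [← map_pow, ← map_mul]
        exact congrArg _ (Subtype.ext rfl)
      let y : chart A W.t₀ := ⟨_, hn₀ n₀ le_rfl⟩
      have hy := hcomp.val_eq_zpow U (x := y) fun g => by
        have hσx : (g : LK M A ≃ₐ[Q̄] LK M A) (x : LK M A) ∈ chart A (jK A L) :=
          (coverW A L).map_chart (W.le g.2) (ch x).2
        have e1 : ((D.act g y : D.B) : LK M A) =
            (g : LK M A ≃ₐ[Q̄] LK M A) (x : LK M A) * (jK A L)⁻¹ ^ n₀ := hs _ (W.le g.2)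
        have hm' : (g : LK M A ≃ₐ[Q̄] LK M A) (x : LK M A) * (jK A L)⁻¹ ^ n₀ ∈ chart A W.t₀ :=
          e1 ▸ (D.act g y).2
        rw [show D.act g y = (⟨_, hm'⟩ : chart A W.t₀) from Subtype.ext e1]
        refine ne_of_eq_of_ne (hsplit ⟨_, hσx⟩ hm') ?_
        exact mul_ne_zero (hconj x hx _ (W.le g.2) hσx)
          (pow_ne_zero _ (by rw [hredI]; exact inv_ne_zero hT0))
      refine ⟨D.tot (y : LK M A) - ((e * 2 : ℕ) : ℤ) * n₀, ?_⟩
      have hy := (congrArg V'.valuation (hsplit (ch x) y.2)).symm.trans hy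
      rw [map_mul, map_pow, hvalT] at hy
      rw [hred, zpow_sub₀ hτ0, zpow_mul, zpow_natCast, zpow_natCast,
        eq_div_iff (pow_ne_zero _ (pow_ne_zero _ hτ0))]
      exact hy
    have hN : 0 < e * 2 := by
      haveI : Nonempty D.stab := ⟨⟨1, fun y => congrArg D.χ (Subtype.ext rfl)⟩⟩
      exact Nat.mul_pos Nat.card_pos two_pos
    have hval : V'.valuation (ψ (f jI)⁻¹) = τ ^ (e * 2) := by
      rw [map_inv₀, hjψ, ← hredI]; exact hvalT
    obtain ⟨u, hu0, hu1, hux, m, hm0, hmn, hzu⟩ := exists_uniformiser ψ Wv hV' hτ0 hτ1 hall hN hval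
    refine ⟨u, hu0, hu1, hux, m, hm0, Or.inr ⟨fun hpm => ?_, f jI, hjI, hzu⟩⟩
    rcases Nat.prime_three.dvd_mul.mp (hpm.trans hmn) with h | h
    · exact hpM ((h.trans he).trans ⟨L.m, L.eq⟩)
    · have := Nat.le_of_dvd two_pos h
      omega

end Fermat.Agent.R59
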