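import Fermat.Agent.R59.Mazur.Gen.Orders
import Fermat.Agent.R59.Mazur.Three.Tame
import Fermat.Agent.R59.Mazur.Three.Elliptic

/-!
# S59, unit F1: tameness over the line of `j` in odd residue characteristic
-/

set_option autoImplicit false
set_option linter.unusedSectionVars false

noncomputable section

namespace Fermat.Agent.R59

open IsLocalRing ModularCurve AlgebraicCurve
open Fermat.Agent.MCurve.Spec (redFld exists_tame_odd)

local notation "κ" A:max => IsLocalRing.ResidueField A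

variable {A : ValuationSubring (AlgebraicClosure ℚ)} {p q m m' : ℕ} [Fact p.Prime] [Fact q.Prime]
  [NeZero p] [NeZero q] [NeZero m] [NeZero m']

/-- At `p ≥ 5` prime to the level everything is tame. -/
theorem tameJ_of_five_le (hA : A.LiesOverPrime q) (hq2 : q ≠ 2) (hp5 : 5 ≤ p) (hpm' : ¬ p ∣ m')
    (h2 : 2 ∣ m') (h5 : 5 ≤ m') (Z P : Prop) : TameJ A p m' Z P := by
  intro _ Wv hk hne
  obtain ⟨u, hu0, hu1, hgen, n, hn0, hpn, hJ⟩ := exists_tame_odd A hA hq2 Fact.out hp5 hpm' h2 h5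
    Wv hk hne
  exact ⟨u, hu0, hu1, hgen, n, hn0, hJ.imp
    (fun ⟨c, z, hz, hv⟩ => ⟨c, z, hz, hv, Or.inl hpn⟩) fun h => ⟨Or.inr hpn, h⟩⟩

/-- At `p = 3` prime to the level only triple zeros of `j` are wild. -/
theorem tameJ_three (hA : A.LiesOverPrime q) (hq2 : q ≠ 2) (hq3 : q ≠ 3) (hpm' : ¬ 3 ∣ m')
    (h2 : 2 ∣ m') (h5 : 5 ≤ m') {r : ℕ} (hqm : ¬ q ∣ m) (hr : r.Prime) (hrm : r ∣ m)
    (hr3 : r % 3 = 2) (P : Prop) : TameJ A 3 m' (ZerosJ A 3 m) P := by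
  intro _ Wv hk hne
  obtain ⟨u, hu0, hu1, hgen, n, hn0, hJ⟩ := exists_tame_three A hA hq2 hq3 hpm' h2 h5 Wv hk hne
  have hZ : ZerosJ A 3 m := fun Q hQ => by
    exact_mod_cast three_dvd_ord_jFullC hA hqm hr hrm hr3 Q hQ
  refine ⟨u, hu0, hu1, hgen, n, hn0, hJ.imp ?_ fun h => ⟨Or.inr h.1, h.2⟩⟩
  rintro ⟨c, z, hz, hv, hn⟩
  exact ⟨c, z, hz, hv, hn.imp id fun h => ⟨by rw [h.1]; norm_num, h.2, hZ⟩⟩

end Fermat.Agent.R59
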