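import Fermat.Agent.R59.Mazur.Gen.Main
import Fermat.Agent.R59.Mazur.Three.Hor
import Fermat.Agent.R59.Mazur.Three.TameInst
import Fermat.Agent.R59.Mazur.Three.Lift
import Fermat.Agent.LL.Mazur.RedLevel
import Fermat.Agent.LL.Mazur.SemiLevel

/-!
# S59, unit F1: Mazur's principle for `p ∈ {3, 5}` prime to the level and odd `ℓ`
-/

set_option autoImplicit false
set_option linter.style.haveILetI false
set_option linter.unusedSectionVars false

namespace Fermat.Agent.R59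

open WeierstrassCurve WeierstrassCurve.Affine.Point IsLocalRing
open scoped WeierstrassCurve.Affine
open Fermat.Agent.GalRep
open Fermat.Agent.GalRep.Semistable (ChartsSemi finite_oBase)
open Fermat.Agent.GalRep.Model (chartRing)
open Fermat.Agent.Models (SemiPoints)
open Fermat.Agent.NewVec
open Fermat.Agent.ModField

/-- The descended charts are semistable at a multiple of the level prime to `p`. -/
theorem exists_semiLevel_odd {q p : ℕ} (hq : q.Prime) (hq2 : q ≠ 2) (hp : p.Prime) (hp2 : p ≠ 2) (hqp : q ≠ p)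
    {A : ValuationSubring (AlgebraicClosure ℚ)} (hA : A.LiesOverPrime q) {m₀ : ℕ} (hm₀ : 0 < m₀)
    (hqm₀ : ¬ q ∣ m₀) (hpm₀ : ¬ p ∣ m₀) :
    ∃ (m : ℕ) (_ : NeZero (q * m)), m₀ ∣ m ∧ ¬ q ∣ m ∧ ¬ p ∣ m ∧ (2 ∣ m ∧ 6 ≤ m) ∧
      ChartsSemi A q m := by
  haveI : Fact q.Prime := ⟨hq⟩
  obtain ⟨hWdvr, hqW, hWac⟩ := wBase_props A hq hA
  haveI := hWdvr
  haveI := hWac
  haveI : NeZero q := ⟨hq.ne_zero⟩
  have hcusp : ∀ (m : ℕ) [NeZero (q * m)], ¬ q ∣ m → 3 ≤ m →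
      SemiPoints (chartRing (wBase A) (jF₀ (wBase A) (embO A (q * m)) q m)) (q : wBase A) →
      SemiPoints (chartRing (wBase A) (jF₀ (wBase A) (embO A (q * m)) q m)⁻¹) (q : wBase A) := by
    intro m _ hqm hm3 hfin
    haveI : NeZero m := ⟨by omega⟩
    haveI := (oBase_dvr (A := A) (M := q * m) hq hA rfl hqm).1
    haveI := finite_oBase (A := A) (M := q * m) hq hA rfl hqm
    exact semiPoints_infinite hqW (adjoin_eq_top hq hA rfl hqm) (exists_wBase_pow hq hA rfl hqm) rfl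
      hqm hm3 hfin
  have hodd : Odd q := (hq.eq_two_or_odd').resolve_left hq2
  obtain ⟨p₀, hp₀, hp₀q, hp₀odd, hp₀p⟩ : ∃ p₀ : ℕ, p₀.Prime ∧ p₀ ≠ q ∧ Odd p₀ ∧ p₀ ≠ p := by
    by_cases h3 : q = 3 ∨ p = 3
    · by_cases h5 : q = 5 ∨ p = 5
      · exact ⟨7, by norm_num, by omega, by decide, by omega⟩
      · exact ⟨5, by norm_num, by omega, by decide, by omega⟩
    · exact ⟨3, Nat.prime_three, by omega, by decide, by omega⟩
  have hq2' : ¬ q ∣ 2 := fun h => by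
    have := (Nat.prime_dvd_prime_iff_eq hq Nat.prime_two).mp h
    rw [this] at hodd
    exact absurd hodd (by decide)
  obtain ⟨a, u, hu, hau⟩ := Nat.exists_eq_two_pow_mul_odd (n := m₀) hm₀.ne'
  obtain ⟨j, hj⟩ := hp₀odd.mul hu
  have hpu : 3 ≤ p₀ * u := by
    have h3 : 3 ≤ p₀ := by
      rcases hp₀.eq_two_or_odd' with rfl | -
      · exact absurd hp₀odd (by decide)
      · have := hp₀.two_le
        obtain ⟨r, hr⟩ := hp₀odd
        omega
    exact h3.trans (Nat.le_mul_of_pos_right p₀ hu.pos)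
  set m := 2 ^ (a + 2) * (p₀ * u) with hm
  have hm₀m : m₀ ∣ m := ⟨4 * p₀, by rw [hm, hau, pow_add]; ring⟩
  have hqm : ¬ q ∣ m := by
    intro h
    rcases hq.dvd_mul.mp h with h1 | h1
    · exact hq2' (hq.dvd_of_dvd_pow h1)
    rcases hq.dvd_mul.mp h1 with h2 | h2
    · exact hp₀q ((Nat.prime_dvd_prime_iff_eq hq hp₀).mp h2).symm
    · exact hqm₀ (hau ▸ h2.mul_left _)
  have hm3 : 3 ≤ m := hpu.trans (Nat.le_mul_of_pos_left _ (by positivity))
  have hpm : ¬ p ∣ m := by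
    intro h
    rcases hp.dvd_mul.mp h with h1 | h1
    · exact hp2 ((Nat.prime_dvd_prime_iff_eq hp Nat.prime_two).mp (hp.dvd_of_dvd_pow h1))
    rcases hp.dvd_mul.mp h1 with h2 | h2
    · exact hp₀p ((Nat.prime_dvd_prime_iff_eq hp hp₀).mp h2).symm
    · exact hpm₀ (hau ▸ h2.mul_left _)
  haveI : NeZero (q * m) := ⟨Nat.mul_ne_zero hq.ne_zero (by omega)⟩
  have h2m : 2 ∣ m := (dvd_pow_self 2 (by omega)).mul_right _
  have h6m : 6 ≤ m := by
    have h4 : 4 ≤ 2 ^ (a + 2) := le_trans (by norm_num)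
      (Nat.pow_le_pow_right two_pos (Nat.le_add_left 2 a))
    calc 6 ≤ 4 * 3 := by norm_num
      _ ≤ m := by rw [hm]; exact Nat.mul_le_mul h4 hpu
  obtain ⟨k, hk⟩ := hodd
  suffices hfin : SemiPoints (chartRing (wBase A) (jF₀ (wBase A) (embO A (q * m)) q m))
      (q : wBase A) from ⟨m, inferInstance, hm₀m, hqm, hpm, ⟨h2m, h6m⟩, hfin,
    hcusp m hqm hm3 hfin⟩
  exact semiPoints_finite (E := embO A (q * m)) hqW (adjoin_eq_top hq hA rfl hqm)
    (exists_wBase_pow hq hA rfl hqm) rfl hqm ((dvd_pow_self 2 (by omega)).mul_right _) hk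
    (Nat.succ_pos (a + 1)) (j := j) (by omega) (by rw [hm, hj])


set_option maxHeartbeats 800000 in
/-- The model for `p` prime to the level and odd `q`; for `p = 3` a prime `r ≡ 2 (mod 3)` of the level
is needed. -/
theorem infModel_tame {A : ValuationSubring (AlgebraicClosure ℚ)} {p q m : ℕ} [Fact p.Prime]
    [NeZero p] [Fact q.Prime] [NeZero q] [NeZero m] (hA : A.LiesOverPrime q) (hq2 : q ≠ 2)
    (hp2 : p ≠ 2) (hqp : q ≠ p) (hqm : ¬ q ∣ m) (hpm : ¬ p ∣ m)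
    (hneat : p = 3 → ∃ r : ℕ, r.Prime ∧ r ∣ m ∧ r % 3 = 2) :
    InfModel A p q m := by
  have hp : p.Prime := Fact.out
  have hq : q.Prime := Fact.out
  obtain ⟨m', hne, hmm, hqm', hpm', ⟨h2, h6⟩, hpts⟩ :=
    exists_semiLevel_odd hq hq2 hp hp2 hqp hA (NeZero.pos m) hqm hpm
  haveI : NeZero m' := ⟨by omega⟩
  have hmem : RedMemBad A q m := fun φ hφ g hg hfix Y hY =>
    LL.Mazur.red_mem_fullC_bad hA hqm' h2 h6 hmm hpts hφ hg hfix hY
  have hndvd : ∀ {c : ℕ}, ¬ p ∣ c → (c * (q * m')).Coprime p := fun {c} hc =>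
    Nat.Coprime.symm (hp.coprime_iff_not_dvd.mpr fun h => by
      rcases hp.dvd_mul.mp h with h | h
      · exact hc h
      rcases hp.dvd_mul.mp h with h | h
      · exact hqp ((Nat.prime_dvd_prime_iff_eq hp hq).mp h).symm
      · exact hpm' h)
  by_cases hp3 : p = 3
  · subst hp3
    obtain ⟨r, hr, hrm, hr3⟩ := hneat rfl
    have hD : (2 * (q * m')).Coprime 3 := hndvd (by norm_num)
    refine ⟨m', hne, _, hmm, hqm', by omega, hpts, hmem, ?_, hD,
      horRoots_three hA hqm' hr (hrm.trans hmm) hr3⟩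
    exact redOrdDvd_of_tame hA hqp hqm' (MCurve.Spec.levTwo h2 (by omega)) hmm hpts hD
      (horRoots_three hA hqm' hr (hrm.trans hmm) hr3)
      (tameJ_three hA hq2 hqp hpm' h2 (by omega) hqm hr hrm hr3 _)
  · have hp5 : 5 ≤ p := by
      have := hp.two_le
      rcases hp.eq_two_or_odd with h | h <;> omega
    have hD : (6 * (q * m')).Coprime p := hndvd (fun h => by
      have := Nat.le_of_dvd (by norm_num) h
      have h5 : p = 5 ∨ p = 6 := by omega
      rcases h5 with rfl | rfl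
      · norm_num at h
      · norm_num at hp)
    refine ⟨m', hne, _, hmm, hqm', by omega, hpts, hmem, ?_, hD, horRoots_six hA hqm' p⟩
    exact redOrdDvd_of_tame hA hqp hqm' (MCurve.Spec.levTwo h2 (by omega)) hmm hpts hD
      (horRoots_six hA hqm' p) (tameJ_of_five_le hA hq2 hp5 hpm' h2 (by omega) _ _)

/-- Mazur's principle for `p ∈ {3, 5}` prime to the level and odd `ℓ`. -/
theorem mazur_lower_small {p : ℕ} [Fact p.Prime] (hp35 : p = 3 ∨ p = 5) (W : WeierstrassCurve ℤ)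
    (hΔ : W.Δ ≠ 0) (hirr : W.ModRepIsIrreducible p) {ℓ m : ℕ} (hm : 0 < m) (hℓ : ℓ.Prime)
    (hℓ2 : ℓ ≠ 2) (hℓp : ℓ ≠ p) (hℓm : ¬ ℓ ∣ m) (hpm : ¬ p ∣ m)
    (hneat : p = 3 → ∃ r : ℕ, r.Prime ∧ r ∣ m ∧ r % 3 = 2)
    (hres : W.IsResiduallyModularOfLevel p (ℓ * m))
    (hunr : GaloisRepUnramifiedAt (K := AlgebraicClosure ℚ) ℚ (W.map (Int.castRingHom ℚ)) p ℓ)
    (hcase : (ℓ : ZMod p) ≠ 1 ∨ ∀ A : ValuationSubring (AlgebraicClosure ℚ),
      A.LiesOverPrime ℓ → DecompNonScalar W p A) :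
    W.IsResiduallyModularOfLevel p m := by
  haveI : NeZero m := ⟨hm.ne'⟩
  haveI : Fact ℓ.Prime := ⟨hℓ⟩
  haveI : NeZero ℓ := ⟨hℓ.ne_zero⟩
  haveI : NeZero p := ⟨(Fact.out : p.Prime).ne_zero⟩
  have hp2 : p ≠ 2 := by omega
  refine mazur_lower_of_model hp2 W hΔ hirr hℓ hℓp hℓm hres hunr hcase ?_
    fun A hA => infModel_tame hA hℓ2 hp2 hℓp hℓm hpm hneat
  intro S hmS a χ h0 h
  rcases hp35 with rfl | rfl
  · obtain ⟨r, hr, hrm, hr3⟩ := hneat rfl
    exact exists_theta_of_eigen_noTors S hmS a h0 (noTors_of_neat hr hrm hr3 (by norm_num)) h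
  · exact LL.Mazur.exists_theta_of_eigen le_rfl S hmS a h0 h

end Fermat.Agent.R59
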